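import Mathlib

/-!
# S41 / block IH-AM (helper225) — abstract amalgam lemma from ping-pong data

Let `A B ≤ G`.  Suppose `G` is the disjoint union of `A ⊓ B`, `SA`, `SB` with the ping-pong
inclusions `(A \ B)·(C ∪ SB) ⊆ SA`, `(B \ A)·(C ∪ SA) ⊆ SB` and a descent (every `g ∈ SA` has a
first letter `k ∈ A \ B` with `k⁻¹ g ∈ C ∪ SB` of smaller length, and symmetrically).  Then `G` is
the amalgam of `A` and `B` over `A ⊓ B`: two homomorphisms `fA : A →* K`, `fB : B →* K` that agree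
on `A ⊓ B` extend uniquely to `G`.
-/

set_option autoImplicit false

namespace Fermat.Agent.S41.H225

/-- Ping-pong data for a pair of subgroups. -/
structure PingPong {G : Type*} [Group G] (A B : Subgroup G) where
  SA : Set G
  SB : Set G
  len : G → ℕ
  cover : ∀ g, (g ∈ A ∧ g ∈ B) ∨ g ∈ SA ∨ g ∈ SB
  notSA_of_mem : ∀ g, g ∈ A → g ∈ B → g ∉ SA
  notSB_of_mem : ∀ g, g ∈ A → g ∈ B → g ∉ SB
  disj : ∀ g, g ∈ SA → g ∉ SB
  pingA : ∀ k, k ∈ A → k ∉ B → ∀ g, ((g ∈ A ∧ g ∈ B) ∨ g ∈ SB) → k * g ∈ SA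
  pingB : ∀ k, k ∈ B → k ∉ A → ∀ g, ((g ∈ A ∧ g ∈ B) ∨ g ∈ SA) → k * g ∈ SB
  descA : ∀ g, g ∈ SA → ∃ k, k ∈ A ∧ k ∉ B ∧ ((k⁻¹ * g ∈ A ∧ k⁻¹ * g ∈ B) ∨ k⁻¹ * g ∈ SB) ∧
    len (k⁻¹ * g) < len g
  descB : ∀ g, g ∈ SB → ∃ k, k ∈ B ∧ k ∉ A ∧ ((k⁻¹ * g ∈ A ∧ k⁻¹ * g ∈ B) ∨ k⁻¹ * g ∈ SA) ∧
    len (k⁻¹ * g) < len g

namespace PingPong

variable {G K : Type*} [Group G] [Group K] {A B : Subgroup G} (P : PingPong A B)
  (fA : A →* K) (fB : B →* K)

/-- first letter of an element of `SA` -/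
noncomputable def letA (g : G) (hg : g ∈ P.SA) : G := (P.descA g hg).choose

theorem letA_memA (g : G) (hg : g ∈ P.SA) : P.letA g hg ∈ A := (P.descA g hg).choose_spec.1
theorem letA_notB (g : G) (hg : g ∈ P.SA) : P.letA g hg ∉ B := (P.descA g hg).choose_spec.2.1
theorem letA_rest (g : G) (hg : g ∈ P.SA) :
    ((P.letA g hg)⁻¹ * g ∈ A ∧ (P.letA g hg)⁻¹ * g ∈ B) ∨ (P.letA g hg)⁻¹ * g ∈ P.SB :=
  (P.descA g hg).choose_spec.2.2.1
theorem letA_len (g : G) (hg : g ∈ P.SA) : P.len ((P.letA g hg)⁻¹ * g) < P.len g :=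
  (P.descA g hg).choose_spec.2.2.2

/-- first letter of an element of `SB` -/
noncomputable def letB (g : G) (hg : g ∈ P.SB) : G := (P.descB g hg).choose

theorem letB_memB (g : G) (hg : g ∈ P.SB) : P.letB g hg ∈ B := (P.descB g hg).choose_spec.1
theorem letB_notA (g : G) (hg : g ∈ P.SB) : P.letB g hg ∉ A := (P.descB g hg).choose_spec.2.1
theorem letB_rest (g : G) (hg : g ∈ P.SB) :
    ((P.letB g hg)⁻¹ * g ∈ A ∧ (P.letB g hg)⁻¹ * g ∈ B) ∨ (P.letB g hg)⁻¹ * g ∈ P.SA :=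
  (P.descB g hg).choose_spec.2.2.1
theorem letB_len (g : G) (hg : g ∈ P.SB) : P.len ((P.letB g hg)⁻¹ * g) < P.len g :=
  (P.descB g hg).choose_spec.2.2.2

open Classical in
/-- The extension, defined by recursion on the length. -/
noncomputable def ext (g : G) : K :=
  if hC : g ∈ A ∧ g ∈ B then fA ⟨g, hC.1⟩
  else if hA : g ∈ P.SA then fA ⟨P.letA g hA, P.letA_memA g hA⟩ * ext ((P.letA g hA)⁻¹ * g)
  else if hB : g ∈ P.SB then fB ⟨P.letB g hB, P.letB_memB g hB⟩ * ext ((P.letB g hB)⁻¹ * g)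
  else 1
termination_by P.len g
decreasing_by
  · exact P.letA_len g hA
  · exact P.letB_len g hB

theorem ext_of_mem (g : G) (hA : g ∈ A) (hB : g ∈ B) : P.ext fA fB g = fA ⟨g, hA⟩ := by
  rw [ext, dif_pos ⟨hA, hB⟩]

theorem ext_of_SA (g : G) (hg : g ∈ P.SA) :
    P.ext fA fB g = fA ⟨P.letA g hg, P.letA_memA g hg⟩ * P.ext fA fB ((P.letA g hg)⁻¹ * g) := by
  have hC : ¬ (g ∈ A ∧ g ∈ B) := fun h => P.notSA_of_mem g h.1 h.2 hg
  rw [ext, dif_neg hC, dif_pos hg]

theorem ext_of_SB (g : G) (hg : g ∈ P.SB) :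
    P.ext fA fB g = fB ⟨P.letB g hg, P.letB_memB g hg⟩ * P.ext fA fB ((P.letB g hg)⁻¹ * g) := by
  have hC : ¬ (g ∈ A ∧ g ∈ B) := fun h => P.notSB_of_mem g h.1 h.2 hg
  have hA : g ∉ P.SA := fun h => P.disj g h hg
  rw [ext, dif_neg hC, dif_neg hA, dif_pos hg]

section main

omit P in
theorem fA_mul' (x y : G) (hx : x ∈ A) (hy : y ∈ A) :
    fA ⟨x * y, A.mul_mem hx hy⟩ = fA ⟨x, hx⟩ * fA ⟨y, hy⟩ := by
  rw [← map_mul]; rfl

omit P in
theorem fB_mul' (x y : G) (hx : x ∈ B) (hy : y ∈ B) :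
    fB ⟨x * y, B.mul_mem hx hy⟩ = fB ⟨x, hx⟩ * fB ⟨y, hy⟩ := by
  rw [← map_mul]; rfl

variable (hf : ∀ (c : G) (hA : c ∈ A) (hB : c ∈ B), fA ⟨c, hA⟩ = fB ⟨c, hB⟩)

include hf

omit hf in
/-- an element of `A` which maps some element of `C ∪ SB` into `C ∪ SB` lies in `B` -/
theorem memB_of_stab (c g : G) (hcA : c ∈ A) (hg : (g ∈ A ∧ g ∈ B) ∨ g ∈ P.SB)
    (hcg : (c * g ∈ A ∧ c * g ∈ B) ∨ c * g ∈ P.SB) : c ∈ B := by
  by_contra hcB
  have h := P.pingA c hcA hcB g hg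
  rcases hcg with h' | h'
  · exact P.notSA_of_mem _ h'.1 h'.2 h
  · exact P.disj _ h h'

omit hf in
/-- an element of `B` which maps some element of `C ∪ SA` into `C ∪ SA` lies in `A` -/
theorem memA_of_stab (c g : G) (hcB : c ∈ B) (hg : (g ∈ A ∧ g ∈ B) ∨ g ∈ P.SA)
    (hcg : (c * g ∈ A ∧ c * g ∈ B) ∨ c * g ∈ P.SA) : c ∈ A := by
  by_contra hcA
  have h := P.pingB c hcB hcA g hg
  rcases hcg with h' | h'
  · exact P.notSB_of_mem _ h'.1 h'.2 h
  · exact P.disj _ h' h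

/-- Step (a): left multiplication by `C`. -/
theorem ext_mul_of_memC (g : G) : ∀ (c : G) (hcA : c ∈ A) (_hcB : c ∈ B),
    P.ext fA fB (c * g) = fA ⟨c, hcA⟩ * P.ext fA fB g := by
  induction hn : P.len g using Nat.strong_induction_on generalizing g with
  | _ n ih =>
    intro c hcA hcB
    rcases P.cover g with hg | hg | hg
    · -- g ∈ C
      rw [P.ext_of_mem fA fB (c * g) (A.mul_mem hcA hg.1) (B.mul_mem hcB hg.2),
        P.ext_of_mem fA fB g hg.1 hg.2, fA_mul' fA]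
    · -- g ∈ SA
      set k₀ := P.letA g hg with hk₀
      have hk₀A := P.letA_memA g hg
      have hk₀B := P.letA_notB g hg
      have hrest := P.letA_rest g hg
      have hlen := P.letA_len g hg
      have hck₀A : c * k₀ ∈ A := A.mul_mem hcA hk₀A
      have hck₀B : c * k₀ ∉ B := fun h => hk₀B (by
        have := B.mul_mem (B.inv_mem hcB) h
        simpa [← mul_assoc] using this)
      have hcg : c * g ∈ P.SA := by
        have := P.pingA (c * k₀) hck₀A hck₀B (k₀⁻¹ * g) hrest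
        simpa [mul_assoc] using this
      set k₁ := P.letA (c * g) hcg with hk₁
      have hk₁A := P.letA_memA (c * g) hcg
      have hrest₁ := P.letA_rest (c * g) hcg
      have hc'A : k₁⁻¹ * c * k₀ ∈ A := A.mul_mem (A.mul_mem (A.inv_mem hk₁A) hcA) hk₀A
      have heq : k₁⁻¹ * c * k₀ * (k₀⁻¹ * g) = k₁⁻¹ * (c * g) := by group
      have hc'B : k₁⁻¹ * c * k₀ ∈ B :=
        P.memB_of_stab _ (k₀⁻¹ * g) hc'A hrest (by rw [heq]; exact hrest₁)
      have hIH := ih (P.len (k₀⁻¹ * g)) (hn ▸ hlen) (k₀⁻¹ * g) rfl (k₁⁻¹ * c * k₀) hc'A hc'B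
      rw [P.ext_of_SA fA fB (c * g) hcg, P.ext_of_SA fA fB g hg, ← heq, hIH, ← mul_assoc,
        ← mul_assoc, ← fA_mul' fA, ← fA_mul' fA]
      congr 2
      apply Subtype.ext
      show k₁ * (k₁⁻¹ * c * k₀) = c * k₀
      group
    · -- g ∈ SB
      set k₀ := P.letB g hg with hk₀
      have hk₀B := P.letB_memB g hg
      have hk₀A := P.letB_notA g hg
      have hrest := P.letB_rest g hg
      have hlen := P.letB_len g hg
      have hck₀B : c * k₀ ∈ B := B.mul_mem hcB hk₀B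
      have hck₀A : c * k₀ ∉ A := fun h => hk₀A (by
        have := A.mul_mem (A.inv_mem hcA) h
        simpa [← mul_assoc] using this)
      have hcg : c * g ∈ P.SB := by
        have := P.pingB (c * k₀) hck₀B hck₀A (k₀⁻¹ * g) hrest
        simpa [mul_assoc] using this
      set k₁ := P.letB (c * g) hcg with hk₁
      have hk₁B := P.letB_memB (c * g) hcg
      have hrest₁ := P.letB_rest (c * g) hcg
      have hc'B : k₁⁻¹ * c * k₀ ∈ B := B.mul_mem (B.mul_mem (B.inv_mem hk₁B) hcB) hk₀B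
      have heq : k₁⁻¹ * c * k₀ * (k₀⁻¹ * g) = k₁⁻¹ * (c * g) := by group
      have hc'A : k₁⁻¹ * c * k₀ ∈ A :=
        P.memA_of_stab _ (k₀⁻¹ * g) hc'B hrest (by rw [heq]; exact hrest₁)
      have hIH := ih (P.len (k₀⁻¹ * g)) (hn ▸ hlen) (k₀⁻¹ * g) rfl (k₁⁻¹ * c * k₀) hc'A hc'B
      rw [P.ext_of_SB fA fB (c * g) hcg, P.ext_of_SB fA fB g hg, ← heq, hIH, ← mul_assoc,
        ← mul_assoc, hf _ hc'A hc'B, hf c hcA hcB, ← fB_mul' fB, ← fB_mul' fB]
      congr 2
      apply Subtype.ext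
      show k₁ * (k₁⁻¹ * c * k₀) = c * k₀
      group

/-- Step 2: any admissible first letter computes `ext` on `SA`. -/
theorem ext_eq_of_letterA (g k : G) (hg : g ∈ P.SA) (hkA : k ∈ A)
    (hrest : (k⁻¹ * g ∈ A ∧ k⁻¹ * g ∈ B) ∨ k⁻¹ * g ∈ P.SB) :
    P.ext fA fB g = fA ⟨k, hkA⟩ * P.ext fA fB (k⁻¹ * g) := by
  set k₀ := P.letA g hg with hk₀
  have hk₀A := P.letA_memA g hg
  have hrest₀ := P.letA_rest g hg
  have hcA : k₀⁻¹ * k ∈ A := A.mul_mem (A.inv_mem hk₀A) hkA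
  have heq : k₀⁻¹ * k * (k⁻¹ * g) = k₀⁻¹ * g := by group
  have hcB : k₀⁻¹ * k ∈ B := P.memB_of_stab _ (k⁻¹ * g) hcA hrest (by rw [heq]; exact hrest₀)
  rw [P.ext_of_SA fA fB g hg, ← heq, P.ext_mul_of_memC fA fB hf (k⁻¹ * g) _ hcA hcB, ← mul_assoc,
    ← fA_mul' fA]
  congr 2
  apply Subtype.ext
  show k₀ * (k₀⁻¹ * k) = k
  group

theorem ext_eq_of_letterB (g k : G) (hg : g ∈ P.SB) (hkB : k ∈ B)
    (hrest : (k⁻¹ * g ∈ A ∧ k⁻¹ * g ∈ B) ∨ k⁻¹ * g ∈ P.SA) :
    P.ext fA fB g = fB ⟨k, hkB⟩ * P.ext fA fB (k⁻¹ * g) := by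
  set k₀ := P.letB g hg with hk₀
  have hk₀B := P.letB_memB g hg
  have hrest₀ := P.letB_rest g hg
  have hcB : k₀⁻¹ * k ∈ B := B.mul_mem (B.inv_mem hk₀B) hkB
  have heq : k₀⁻¹ * k * (k⁻¹ * g) = k₀⁻¹ * g := by group
  have hcA : k₀⁻¹ * k ∈ A := P.memA_of_stab _ (k⁻¹ * g) hcB hrest (by rw [heq]; exact hrest₀)
  rw [P.ext_of_SB fA fB g hg, ← heq, P.ext_mul_of_memC fA fB hf (k⁻¹ * g) _ hcA hcB, ← mul_assoc,
    hf _ hcA hcB, ← fB_mul' fB]
  congr 2
  apply Subtype.ext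
  show k₀ * (k₀⁻¹ * k) = k
  group

/-- Step 3 (b): left multiplication by `A`. -/
theorem ext_mul_of_memA (k g : G) (hkA : k ∈ A) :
    P.ext fA fB (k * g) = fA ⟨k, hkA⟩ * P.ext fA fB g := by
  by_cases hkB : k ∈ B
  · exact P.ext_mul_of_memC fA fB hf g k hkA hkB
  rcases P.cover g with hg | hg | hg
  · have hkg := P.pingA k hkA hkB g (Or.inl hg)
    have := P.ext_eq_of_letterA fA fB hf (k * g) k hkg hkA (by simpa using Or.inl hg)
    simpa using this
  · have hk₀A := P.letA_memA g hg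
    have hrest := P.letA_rest g hg
    have hkk₀A : k * P.letA g hg ∈ A := A.mul_mem hkA hk₀A
    have heq : k * g = k * P.letA g hg * ((P.letA g hg)⁻¹ * g) := by group
    have key : P.ext fA fB (k * P.letA g hg * ((P.letA g hg)⁻¹ * g))
        = fA ⟨k * P.letA g hg, hkk₀A⟩ * P.ext fA fB ((P.letA g hg)⁻¹ * g) := by
      by_cases hkk₀B : k * P.letA g hg ∈ B
      · exact P.ext_mul_of_memC fA fB hf _ _ hkk₀A hkk₀B
      · have hkg := P.pingA _ hkk₀A hkk₀B _ hrest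
        have h2 := P.ext_eq_of_letterA fA fB hf _ (k * P.letA g hg) hkg hkk₀A
          (by rw [inv_mul_cancel_left]; exact hrest)
        rw [inv_mul_cancel_left] at h2
        exact h2
    rw [heq, key, P.ext_of_SA fA fB g hg, ← mul_assoc, ← fA_mul' fA]
  · have hkg := P.pingA k hkA hkB g (Or.inr hg)
    have := P.ext_eq_of_letterA fA fB hf (k * g) k hkg hkA (by simpa using Or.inr hg)
    simpa using this

/-- Step 3 (c): left multiplication by `B`. -/
theorem ext_mul_of_memB (k g : G) (hkB : k ∈ B) :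
    P.ext fA fB (k * g) = fB ⟨k, hkB⟩ * P.ext fA fB g := by
  by_cases hkA : k ∈ A
  · rw [← hf k hkA hkB]; exact P.ext_mul_of_memC fA fB hf g k hkA hkB
  rcases P.cover g with hg | hg | hg
  · have hkg := P.pingB k hkB hkA g (Or.inl hg)
    have := P.ext_eq_of_letterB fA fB hf (k * g) k hkg hkB (by simpa using Or.inl hg)
    simpa using this
  · have hkg := P.pingB k hkB hkA g (Or.inr hg)
    have := P.ext_eq_of_letterB fA fB hf (k * g) k hkg hkB (by simpa using Or.inr hg)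
    simpa using this
  · have hk₀B := P.letB_memB g hg
    have hrest := P.letB_rest g hg
    have hkk₀B : k * P.letB g hg ∈ B := B.mul_mem hkB hk₀B
    have heq : k * g = k * P.letB g hg * ((P.letB g hg)⁻¹ * g) := by group
    have key : P.ext fA fB (k * P.letB g hg * ((P.letB g hg)⁻¹ * g))
        = fB ⟨k * P.letB g hg, hkk₀B⟩ * P.ext fA fB ((P.letB g hg)⁻¹ * g) := by
      by_cases hkk₀A : k * P.letB g hg ∈ A
      · rw [← hf _ hkk₀A hkk₀B]; exact P.ext_mul_of_memC fA fB hf _ _ hkk₀A hkk₀B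
      · have hkg := P.pingB _ hkk₀B hkk₀A _ hrest
        have h2 := P.ext_eq_of_letterB fA fB hf _ (k * P.letB g hg) hkg hkk₀B
          (by rw [inv_mul_cancel_left]; exact hrest)
        rw [inv_mul_cancel_left] at h2
        exact h2
    rw [heq, key, P.ext_of_SB fA fB g hg, ← mul_assoc, ← fB_mul' fB]

omit hf in
theorem ext_one : P.ext fA fB 1 = 1 := by
  rw [P.ext_of_mem fA fB 1 A.one_mem B.one_mem]
  exact map_one fA

/-- Step 4: `ext` is multiplicative. -/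
theorem ext_mul (h g : G) : P.ext fA fB (h * g) = P.ext fA fB h * P.ext fA fB g := by
  induction hn : P.len h using Nat.strong_induction_on generalizing h with
  | _ n ih =>
    rcases P.cover h with hh | hh | hh
    · rw [P.ext_mul_of_memC fA fB hf g h hh.1 hh.2, P.ext_of_mem fA fB h hh.1 hh.2]
    · set k₀ := P.letA h hh with hk₀
      have hk₀A := P.letA_memA h hh
      have hlen := P.letA_len h hh
      have heq : h * g = k₀ * (k₀⁻¹ * h * g) := by group
      rw [heq, P.ext_mul_of_memA fA fB hf _ _ hk₀A,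
        ih _ (hn ▸ hlen) (k₀⁻¹ * h) rfl, P.ext_of_SA fA fB h hh, mul_assoc]
    · set k₀ := P.letB h hh with hk₀
      have hk₀B := P.letB_memB h hh
      have hlen := P.letB_len h hh
      have heq : h * g = k₀ * (k₀⁻¹ * h * g) := by group
      rw [heq, P.ext_mul_of_memB fA fB hf _ _ hk₀B,
        ih _ (hn ▸ hlen) (k₀⁻¹ * h) rfl, P.ext_of_SB fA fB h hh, mul_assoc]

/-- The extension as a homomorphism. -/
noncomputable def extHom : G →* K where
  toFun := P.ext fA fB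
  map_one' := P.ext_one fA fB
  map_mul' := P.ext_mul fA fB hf

theorem extHom_of_memA (a : A) : P.extHom fA fB hf (a : G) = fA a := by
  have := P.ext_mul_of_memA fA fB hf (a : G) 1 a.2
  rw [mul_one, P.ext_one fA fB, mul_one] at this
  exact this

theorem extHom_of_memB (b : B) : P.extHom fA fB hf (b : G) = fB b := by
  have := P.ext_mul_of_memB fA fB hf (b : G) 1 b.2
  rw [mul_one, P.ext_one fA fB, mul_one] at this
  exact this

omit hf in
include P in
/-- Two homomorphisms on `G` that agree on `A` and on `B` are equal. -/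
theorem hom_ext (Φ Ψ : G →* K) (hA : ∀ a : A, Φ a = Ψ a) (hB : ∀ b : B, Φ b = Ψ b) : Φ = Ψ := by
  ext g
  induction hn : P.len g using Nat.strong_induction_on generalizing g with
  | _ n ih =>
    rcases P.cover g with hg | hg | hg
    · exact hA ⟨g, hg.1⟩
    · have hlen := P.letA_len g hg
      have h1 : Φ g = Φ (P.letA g hg) * Φ ((P.letA g hg)⁻¹ * g) := by
        rw [← map_mul, mul_inv_cancel_left]
      have h2 : Ψ g = Ψ (P.letA g hg) * Ψ ((P.letA g hg)⁻¹ * g) := by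
        rw [← map_mul, mul_inv_cancel_left]
      have e1 : Φ (P.letA g hg) = Ψ (P.letA g hg) := hA ⟨_, P.letA_memA g hg⟩
      have e2 := ih _ (hn ▸ hlen) ((P.letA g hg)⁻¹ * g) rfl
      rw [h1, h2, e1, e2]
    · have hlen := P.letB_len g hg
      have h1 : Φ g = Φ (P.letB g hg) * Φ ((P.letB g hg)⁻¹ * g) := by
        rw [← map_mul, mul_inv_cancel_left]
      have h2 : Ψ g = Ψ (P.letB g hg) * Ψ ((P.letB g hg)⁻¹ * g) := by
        rw [← map_mul, mul_inv_cancel_left]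
      have e1 : Φ (P.letB g hg) = Ψ (P.letB g hg) := hB ⟨_, P.letB_memB g hg⟩
      have e2 := ih _ (hn ▸ hlen) ((P.letB g hg)⁻¹ * g) rfl
      rw [h1, h2, e1, e2]

include P in
/-- **Abstract amalgam lemma.** -/
theorem existsUnique_extension :
    ∃! Φ : G →* K, (∀ a : A, Φ a = fA a) ∧ (∀ b : B, Φ b = fB b) := by
  refine ⟨P.extHom fA fB hf, ⟨P.extHom_of_memA fA fB hf, P.extHom_of_memB fA fB hf⟩, ?_⟩
  rintro Ψ ⟨hA, hB⟩
  exact P.hom_ext (K := K) Ψ _ (fun a => (hA a).trans (P.extHom_of_memA fA fB hf a).symm)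
    (fun b => (hB b).trans (P.extHom_of_memB fA fB hf b).symm)

omit hf in
include P in
theorem mem_sup (g : G) : g ∈ A ⊔ B := by
  induction hn : P.len g using Nat.strong_induction_on generalizing g with
  | _ n ih =>
    rcases P.cover g with hg | hg | hg
    · exact Subgroup.mem_sup_left hg.1
    · have hlen := P.letA_len g hg
      have heq : P.letA g hg * ((P.letA g hg)⁻¹ * g) = g := mul_inv_cancel_left _ _
      rw [← heq]
      exact (A ⊔ B).mul_mem (Subgroup.mem_sup_left (P.letA_memA g hg)) (ih _ (hn ▸ hlen) _ rfl)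
    · have hlen := P.letB_len g hg
      have heq : P.letB g hg * ((P.letB g hg)⁻¹ * g) = g := mul_inv_cancel_left _ _
      rw [← heq]
      exact (A ⊔ B).mul_mem (Subgroup.mem_sup_right (P.letB_memB g hg)) (ih _ (hn ▸ hlen) _ rfl)

omit hf in
include P in
/-- `G` is generated by `A` and `B`. -/
theorem sup_eq_top : A ⊔ B = ⊤ := eq_top_iff.2 fun g _ => P.mem_sup g

end main

end PingPong

end Fermat.Agent.S41.H225
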