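import Mathlib

/-!
# S41 / block IH-AM (helper225) — integer representatives `g = q^{-n} M`

`Rep q g n M` : `q^n • g = M` for a rational `2 × 2` matrix `g` and an integer matrix `M`.
`Delta N q ≤ SL(2, ℚ)` : the group `Γ₀(N)[1/q]` (entries in `ℤ[1/q]`, lower-left entry in
`N ℤ[1/q]`), defined through integer representatives.
-/

set_option autoImplicit false

namespace Fermat.Agent.S41.H225

open Matrix
open scoped MatrixGroups

/-- `q^n • g = M`. -/
def Rep (q : ℕ) (g : Matrix (Fin 2) (Fin 2) ℚ) (n : ℕ) (M : Matrix (Fin 2) (Fin 2) ℤ) : Prop :=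
  ∀ i j, (q : ℚ) ^ n * g i j = (M i j : ℚ)

namespace Rep

variable {q : ℕ} {g h : Matrix (Fin 2) (Fin 2) ℚ} {n m : ℕ} {M M' : Matrix (Fin 2) (Fin 2) ℤ}

theorem one : Rep q (1 : Matrix (Fin 2) (Fin 2) ℚ) 0 1 := by
  intro i j
  fin_cases i <;> fin_cases j <;> simp

theorem mul (hg : Rep q g n M) (hh : Rep q h m M') : Rep q (g * h) (n + m) (M * M') := by
  intro i j
  simp only [Matrix.mul_apply, Fin.sum_univ_two, Int.cast_add, Int.cast_mul]
  rw [← hg i 0, ← hg i 1, ← hh 0 j, ← hh 1 j]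
  ring

theorem adjugate (hg : Rep q g n M) : Rep q g.adjugate n M.adjugate := by
  intro i j
  rw [Matrix.adjugate_fin_two, Matrix.adjugate_fin_two]
  fin_cases i <;> fin_cases j <;> simp [← hg 0 0, ← hg 0 1, ← hg 1 0, ← hg 1 1]

theorem succ (hg : Rep q g n M) : Rep q g (n + 1) ((q : ℤ) • M) := by
  intro i j
  simp only [Matrix.smul_apply, smul_eq_mul, Int.cast_mul, Int.cast_natCast, ← hg i j]
  ring

theorem det (hg : Rep q g n M) : ((M.det : ℤ) : ℚ) = (q : ℚ) ^ (2 * n) * g.det := by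
  rw [Matrix.det_fin_two, Matrix.det_fin_two]
  push_cast
  rw [← hg 0 0, ← hg 0 1, ← hg 1 0, ← hg 1 1]
  ring

theorem det_eq (hg : Rep q g n M) (hdet : g.det = 1) : M.det = (q : ℤ) ^ (2 * n) := by
  have := hg.det
  rw [hdet, mul_one] at this
  exact_mod_cast this

/-- uniqueness of the integer matrix for a given exponent -/
theorem unique (hg : Rep q g n M) (hg' : Rep q g n M') : M = M' := by
  ext i j
  have := (hg i j).symm.trans (hg' i j)
  exact_mod_cast this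

theorem of_le (hg : Rep q g n M) (hg' : Rep q g (n + m) M') :
    M' = ((q : ℤ) ^ m) • M := by
  ext i j
  have h1 := hg i j
  have h2 := hg' i j
  have : ((M' i j : ℤ) : ℚ) = (((q : ℤ) ^ m * M i j : ℤ) : ℚ) := by
    push_cast
    rw [← h1, ← h2]
    ring
  simpa using (Int.cast_injective this)

end Rep

/-- all entries divisible by `q` -/
def AllDvd (q : ℕ) (M : Matrix (Fin 2) (Fin 2) ℤ) : Prop := ∀ i j, (q : ℤ) ∣ M i j

/-- row `i` is not divisible by `q` -/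
def RowNZ (q : ℕ) (M : Matrix (Fin 2) (Fin 2) ℤ) (i : Fin 2) : Prop :=
  ¬ ((q : ℤ) ∣ M i 0 ∧ (q : ℤ) ∣ M i 1)

theorem RowNZ.not_allDvd {q : ℕ} {M : Matrix (Fin 2) (Fin 2) ℤ} {i : Fin 2} (h : RowNZ q M i) :
    ¬ AllDvd q M := fun h' => h ⟨h' i 0, h' i 1⟩

theorem allDvd_smul (q : ℕ) (M : Matrix (Fin 2) (Fin 2) ℤ) {m : ℕ} (hm : m ≠ 0) :
    AllDvd q (((q : ℤ) ^ m) • M) := by
  intro i j
  simp only [Matrix.smul_apply, smul_eq_mul]
  exact Dvd.dvd.mul_right (dvd_pow_self _ hm) _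

/-- A primitive representative determines the exponent. -/
theorem Rep.exponent_unique {q : ℕ} {g : Matrix (Fin 2) (Fin 2) ℚ} {n n' : ℕ}
    {M M' : Matrix (Fin 2) (Fin 2) ℤ} (hg : Rep q g n M) (hg' : Rep q g n' M')
    (hM : ¬ AllDvd q M) (hM' : ¬ AllDvd q M') : n = n' ∧ M = M' := by
  rcases Nat.lt_trichotomy n n' with h | h | h
  · obtain ⟨m, rfl⟩ := Nat.exists_eq_add_of_lt h
    have := hg.of_le (m := m + 1) (by rw [← add_assoc]; exact hg')
    exact absurd (this ▸ allDvd_smul q M (Nat.succ_ne_zero m)) hM'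
  · subst h
    exact ⟨rfl, hg.unique hg'⟩
  · obtain ⟨m, rfl⟩ := Nat.exists_eq_add_of_lt h
    have := hg'.of_le (m := m + 1) (by rw [← add_assoc]; exact hg)
    exact absurd (this ▸ allDvd_smul q M' (Nat.succ_ne_zero m)) hM

/-- If all entries of a representative are divisible by `q`, lower the exponent. -/
theorem Rep.pred {q : ℕ} (hq : q ≠ 0) {g : Matrix (Fin 2) (Fin 2) ℚ} {n : ℕ}
    {M : Matrix (Fin 2) (Fin 2) ℤ} (hg : Rep q g (n + 1) M) (hM : AllDvd q M) :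
    ∃ M', Rep q g n M' ∧ M = (q : ℤ) • M' := by
  choose f hf using hM
  refine ⟨Matrix.of f, ?_, ?_⟩
  · intro i j
    have h1 := hg i j
    rw [hf i j] at h1
    push_cast at h1
    have hq' : (q : ℚ) ≠ 0 := by exact_mod_cast hq
    have : (q : ℚ) * ((q : ℚ) ^ n * g i j) = (q : ℚ) * (f i j : ℚ) := by
      rw [← h1]; ring
    exact mul_left_cancel₀ hq' this
  · ext i j
    simp [hf i j]

/-- `Γ₀(N)[1/q]` as a subgroup of `SL(2, ℚ)`. -/
def Delta (N q : ℕ) : Subgroup SL(2, ℚ) where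
  carrier := {g | ∃ (n : ℕ) (M : Matrix (Fin 2) (Fin 2) ℤ),
    Rep q (g : Matrix (Fin 2) (Fin 2) ℚ) n M ∧ (N : ℤ) ∣ M 1 0}
  one_mem' := ⟨0, 1, by simpa using Rep.one, by simp⟩
  mul_mem' := by
    rintro g h ⟨n, M, hM, hN⟩ ⟨m, M', hM', hN'⟩
    refine ⟨n + m, M * M', ?_, ?_⟩
    · rw [Matrix.SpecialLinearGroup.coe_mul]
      exact hM.mul hM'
    · simp only [Matrix.mul_apply, Fin.sum_univ_two]
      exact dvd_add (Dvd.dvd.mul_right hN _) (Dvd.dvd.mul_left hN' _)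
  inv_mem' := by
    rintro g ⟨n, M, hM, hN⟩
    refine ⟨n, M.adjugate, ?_, ?_⟩
    · rw [Matrix.SpecialLinearGroup.coe_inv]
      exact hM.adjugate
    · rw [Matrix.adjugate_fin_two]
      simpa using hN

theorem mem_Delta_iff {N q : ℕ} {g : SL(2, ℚ)} : g ∈ Delta N q ↔
    ∃ (n : ℕ) (M : Matrix (Fin 2) (Fin 2) ℤ),
      Rep q (g : Matrix (Fin 2) (Fin 2) ℚ) n M ∧ (N : ℤ) ∣ M 1 0 := Iff.rfl

/-- In `Delta N q` with `N` prime to `q`, every integer representative has lower-left entry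
divisible by `N`. -/
theorem dvd_of_mem_Delta {N q : ℕ} (hNq : Nat.Coprime N q) {g : SL(2, ℚ)}
    (hg : g ∈ Delta N q) {n : ℕ} {M : Matrix (Fin 2) (Fin 2) ℤ}
    (hM : Rep q (g : Matrix (Fin 2) (Fin 2) ℚ) n M) : (N : ℤ) ∣ M 1 0 := by
  obtain ⟨n', M', hM', hN'⟩ := hg
  -- compare at exponent n + n'
  have h1 : ((q : ℤ) ^ n') * M 1 0 = ((q : ℤ) ^ n) * M' 1 0 := by
    have e1 := hM 1 0
    have e2 := hM' 1 0
    have : (((q : ℤ) ^ n' * M 1 0 : ℤ) : ℚ) = (((q : ℤ) ^ n * M' 1 0 : ℤ) : ℚ) := by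
      push_cast
      rw [← e1, ← e2]
      ring
    exact_mod_cast this
  have h2 : (N : ℤ) ∣ ((q : ℤ) ^ n') * M 1 0 := by
    rw [h1]
    exact Dvd.dvd.mul_left hN' _
  have hcop : IsCoprime (N : ℤ) ((q : ℤ) ^ n') := by
    apply IsCoprime.pow_right
    exact Nat.isCoprime_iff_coprime.2 hNq
  exact hcop.dvd_of_dvd_mul_left h2

end Fermat.Agent.S41.H225
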