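import Mathlib
import Fermat.Agent.S41.H225.AmalgRep

/-!
# S41 / block IH-AM (helper225) — the two embeddings of `Γ₀(N)` into `Γ₀(N)[1/q]`

`J1 : Γ₀(N) →* Delta N q` (cast) and `J2 : Γ₀(N) →* Delta N q`,
`[[a, b], [c, d]] ↦ δ⁻¹ [[a, b], [c, d]] δ = [[a, b / q], [q c, d]]`, `δ = diag(q, 1)`.
-/

set_option autoImplicit false

namespace Fermat.Agent.S41.H225

open Matrix CongruenceSubgroup
open scoped MatrixGroups

/-- the underlying rational matrix -/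
abbrev mat {N q : ℕ} (x : Delta N q) : Matrix (Fin 2) (Fin 2) ℚ :=
  ((x : SL(2, ℚ)) : Matrix (Fin 2) (Fin 2) ℚ)

theorem mat_mul {N q : ℕ} (x y : Delta N q) : mat (x * y) = mat x * mat y := by
  simp [mat]

theorem mat_inv {N q : ℕ} (x : Delta N q) : mat x⁻¹ = (mat x).adjugate := by
  simp [mat, Matrix.SpecialLinearGroup.coe_inv]

theorem mat_one {N q : ℕ} : mat (1 : Delta N q) = 1 := by
  simp [mat]

theorem det_mat {N q : ℕ} (x : Delta N q) : (mat x).det = 1 := (x : SL(2, ℚ)).2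

theorem mat_injective {N q : ℕ} : Function.Injective (mat (N := N) (q := q)) := by
  intro x y h
  apply Subtype.ext
  apply Subtype.ext
  exact h

theorem exists_rep {N q : ℕ} (x : Delta N q) :
    ∃ n, ∃ M : Matrix (Fin 2) (Fin 2) ℤ, Rep q (mat x) n M := by
  obtain ⟨n, M, hM, -⟩ := x.2
  exact ⟨n, M, hM⟩

/-- the cast `SL(2, ℤ) → SL(2, ℚ)` -/
noncomputable def castSL : SL(2, ℤ) →* SL(2, ℚ) :=
  Matrix.SpecialLinearGroup.map (Int.castRingHom ℚ)

theorem castSL_apply (γ : SL(2, ℤ)) (i j : Fin 2) :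
    ((castSL γ : SL(2, ℚ)) : Matrix (Fin 2) (Fin 2) ℚ) i j = ((γ i j : ℤ) : ℚ) := by
  simp [castSL, Matrix.SpecialLinearGroup.map_apply_coe]

theorem rep_castSL (q : ℕ) (γ : SL(2, ℤ)) :
    Rep q ((castSL γ : SL(2, ℚ)) : Matrix (Fin 2) (Fin 2) ℚ) 0
      (γ : Matrix (Fin 2) (Fin 2) ℤ) := by
  intro i j
  rw [castSL_apply, pow_zero, one_mul]

theorem castSL_injective : Function.Injective castSL := by
  intro γ γ' h
  apply Subtype.ext
  ext i j
  have := congrArg (fun g : SL(2, ℚ) => (g : Matrix (Fin 2) (Fin 2) ℚ) i j) h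
  simp only [castSL_apply] at this
  exact_mod_cast this

theorem dvd_of_mem_Gamma0 {N : ℕ} (γ : Gamma0 N) : (N : ℤ) ∣ (γ : SL(2, ℤ)) 1 0 :=
  (ZMod.intCast_zmod_eq_zero_iff_dvd _ _).mp (Gamma0_mem.mp γ.2)

/-- `J1 : Γ₀(N) → Γ₀(N)[1/q]`, the inclusion. -/
noncomputable def J1 (N q : ℕ) : Gamma0 N →* Delta N q :=
  (castSL.comp (Gamma0 N).subtype).codRestrict (Delta N q)
    (fun γ => ⟨0, _, rep_castSL q γ, dvd_of_mem_Gamma0 γ⟩)

theorem mat_J1 {N q : ℕ} (γ : Gamma0 N) (i j : Fin 2) :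
    mat (J1 N q γ) i j = (((γ : SL(2, ℤ)) i j : ℤ) : ℚ) :=
  castSL_apply _ i j

theorem rep_J1 {N q : ℕ} (γ : Gamma0 N) :
    Rep q (mat (J1 N q γ)) 0 ((γ : SL(2, ℤ)) : Matrix (Fin 2) (Fin 2) ℤ) :=
  rep_castSL q _

theorem J1_injective (N q : ℕ) : Function.Injective (J1 N q) := by
  intro γ γ' h
  have h' := congrArg (fun x : Delta N q => (x : SL(2, ℚ))) h
  exact Subtype.ext (castSL_injective h')

/-- the matrix `δ⁻¹ g δ = [[a, b / q], [q c, d]]` -/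
def conjMat (q : ℕ) (g : Matrix (Fin 2) (Fin 2) ℚ) : Matrix (Fin 2) (Fin 2) ℚ :=
  !![g 0 0, g 0 1 / q; q * g 1 0, g 1 1]

theorem conjMat_00 (q : ℕ) (g : Matrix (Fin 2) (Fin 2) ℚ) : conjMat q g 0 0 = g 0 0 := rfl
theorem conjMat_01 (q : ℕ) (g : Matrix (Fin 2) (Fin 2) ℚ) : conjMat q g 0 1 = g 0 1 / q := rfl
theorem conjMat_10 (q : ℕ) (g : Matrix (Fin 2) (Fin 2) ℚ) : conjMat q g 1 0 = q * g 1 0 := rfl
theorem conjMat_11 (q : ℕ) (g : Matrix (Fin 2) (Fin 2) ℚ) : conjMat q g 1 1 = g 1 1 := rfl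

theorem conjMat_det {q : ℕ} (hq : q ≠ 0) (g : Matrix (Fin 2) (Fin 2) ℚ) :
    (conjMat q g).det = g.det := by
  have hq' : (q : ℚ) ≠ 0 := by exact_mod_cast hq
  rw [conjMat, Matrix.det_fin_two_of, Matrix.det_fin_two]
  field_simp

theorem conjMat_mul {q : ℕ} (hq : q ≠ 0) (g h : Matrix (Fin 2) (Fin 2) ℚ) :
    conjMat q (g * h) = conjMat q g * conjMat q h := by
  have hq' : (q : ℚ) ≠ 0 := by exact_mod_cast hq
  ext i j
  fin_cases i <;> fin_cases j <;>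
    simp [conjMat, Matrix.mul_apply, Fin.sum_univ_two] <;> field_simp

theorem conjMat_one (q : ℕ) : conjMat q 1 = 1 := by
  ext i j
  fin_cases i <;> fin_cases j <;> simp [conjMat]

/-- conjugation by `δ⁻¹ = diag(q, 1)⁻¹` on `SL(2, ℚ)` -/
def conjD (q : ℕ) [NeZero q] : SL(2, ℚ) →* SL(2, ℚ) where
  toFun g := ⟨conjMat q g, by rw [conjMat_det (NeZero.ne q)]; exact g.2⟩
  map_one' := by
    apply Subtype.ext
    simp [conjMat_one]
  map_mul' g h := by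
    apply Subtype.ext
    show conjMat q ((g * h : SL(2, ℚ)) : Matrix (Fin 2) (Fin 2) ℚ) = conjMat q g * conjMat q h
    rw [Matrix.SpecialLinearGroup.coe_mul, conjMat_mul (NeZero.ne q)]

theorem conjD_apply (q : ℕ) [NeZero q] (g : SL(2, ℚ)) :
    ((conjD q g : SL(2, ℚ)) : Matrix (Fin 2) (Fin 2) ℚ)
      = conjMat q (g : Matrix (Fin 2) (Fin 2) ℚ) := rfl

theorem conjD_injective (q : ℕ) [NeZero q] : Function.Injective (conjD q) := by
  have hq' : (q : ℚ) ≠ 0 := by exact_mod_cast NeZero.ne q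
  intro g h hgh
  have h' : conjMat q (g : Matrix (Fin 2) (Fin 2) ℚ) = conjMat q (h : Matrix (Fin 2) (Fin 2) ℚ) :=
    congrArg (fun x : SL(2, ℚ) => (x : Matrix (Fin 2) (Fin 2) ℚ)) hgh
  have e00 := congrFun (congrFun h' 0) 0
  have e01 := congrFun (congrFun h' 0) 1
  have e10 := congrFun (congrFun h' 1) 0
  have e11 := congrFun (congrFun h' 1) 1
  rw [conjMat_00, conjMat_00] at e00
  rw [conjMat_01, conjMat_01] at e01
  rw [conjMat_10, conjMat_10] at e10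
  rw [conjMat_11, conjMat_11] at e11
  apply Subtype.ext
  ext i j
  fin_cases i <;> fin_cases j
  · exact e00
  · exact (div_left_inj' hq').1 e01
  · exact mul_left_cancel₀ hq' e10
  · exact e11

/-- the integer representative of `δ⁻¹ γ δ` at exponent `1` -/
def conjRep (q : ℕ) (M : Matrix (Fin 2) (Fin 2) ℤ) : Matrix (Fin 2) (Fin 2) ℤ :=
  !![q * M 0 0, M 0 1; q ^ 2 * M 1 0, q * M 1 1]

theorem rep_conjMat {q : ℕ} (hq : q ≠ 0) {g : Matrix (Fin 2) (Fin 2) ℚ}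
    {M : Matrix (Fin 2) (Fin 2) ℤ} (hg : Rep q g 0 M) : Rep q (conjMat q g) 1 (conjRep q M) := by
  have hq' : (q : ℚ) ≠ 0 := by exact_mod_cast hq
  have h := fun i j => (hg i j)
  simp only [pow_zero, one_mul] at h
  intro i j
  fin_cases i <;> fin_cases j <;> simp [conjMat, conjRep, h] <;> field_simp

/-- `J2 : Γ₀(N) → Γ₀(N)[1/q]`, `γ ↦ δ⁻¹ γ δ`. -/
noncomputable def J2 (N q : ℕ) [NeZero q] : Gamma0 N →* Delta N q :=
  ((conjD q).comp (castSL.comp (Gamma0 N).subtype)).codRestrict (Delta N q)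
    (fun γ => ⟨1, _, rep_conjMat (NeZero.ne q) (rep_castSL q γ), by
      simp only [conjRep, Matrix.of_apply, Matrix.cons_val_one, Matrix.cons_val_zero]
      exact Dvd.dvd.mul_left (dvd_of_mem_Gamma0 γ) _⟩)

theorem mat_J2 {N q : ℕ} [NeZero q] (γ : Gamma0 N) :
    mat (J2 N q γ) = conjMat q (mat (J1 N q γ)) := rfl

theorem rep_J2 {N q : ℕ} [NeZero q] (γ : Gamma0 N) :
    Rep q (mat (J2 N q γ)) 1 (conjRep q ((γ : SL(2, ℤ)) : Matrix (Fin 2) (Fin 2) ℤ)) :=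
  rep_conjMat (NeZero.ne q) (rep_castSL q _)

theorem J2_injective (N q : ℕ) [NeZero q] : Function.Injective (J2 N q) := by
  intro γ γ' h
  have h' := congrArg (fun x : Delta N q => (x : SL(2, ℚ))) h
  exact Subtype.ext (castSL_injective (conjD_injective q h'))

end Fermat.Agent.S41.H225
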