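import Mathlib
import Fermat.Agent.S41.H225.AmalgAbstract
import Fermat.Agent.S41.H225.AmalgMaps

/-!
# S41 / block IH-AM (helper225) — `Γ₀(N)[1/q]` is the amalgam of `Γ₀(N)` and `δ⁻¹ Γ₀(N) δ`

Ping-pong data for `A = J1(Γ₀(N))`, `B = J2(Γ₀(N))` inside `Delta N q`, via integer
representatives `g = q^{-n} M` and divisibility of the rows of `M` by `q`.
-/

set_option autoImplicit false

namespace Fermat.Agent.S41.H225

open Matrix CongruenceSubgroup
open scoped MatrixGroups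

section arith

variable {q : ℕ}

theorem AllDvd.mul_left {P : Matrix (Fin 2) (Fin 2) ℤ} (h : AllDvd q P)
    (K : Matrix (Fin 2) (Fin 2) ℤ) : AllDvd q (K * P) := by
  intro i j
  simp only [Matrix.mul_apply, Fin.sum_univ_two]
  exact dvd_add (Dvd.dvd.mul_left (h 0 j) _) (Dvd.dvd.mul_left (h 1 j) _)

theorem allDvd_of_rows {P : Matrix (Fin 2) (Fin 2) ℤ} (h0 : (q : ℤ) ∣ P 0 0 ∧ (q : ℤ) ∣ P 0 1)
    (h1 : (q : ℤ) ∣ P 1 0 ∧ (q : ℤ) ∣ P 1 1) : AllDvd q P := by
  intro i j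
  fin_cases i <;> fin_cases j
  · exact h0.1
  · exact h0.2
  · exact h1.1
  · exact h1.2

/-- proportionality of the rows mod `q` of a matrix with determinant divisible by `q` -/
theorem exists_prop_mod (hq : q.Prime) {x y z w : ℤ} (hdet : (q : ℤ) ∣ x * w - y * z)
    (hzw : ¬ ((q : ℤ) ∣ z ∧ (q : ℤ) ∣ w)) :
    ∃ l : ℤ, (q : ℤ) ∣ x - l * z ∧ (q : ℤ) ∣ y - l * w := by
  have hp : Prime (q : ℤ) := Nat.prime_iff_prime_int.mp hq
  by_cases hz : (q : ℤ) ∣ z
  · have hw : ¬ (q : ℤ) ∣ w := fun h => hzw ⟨hz, h⟩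
    obtain ⟨s, t, hst⟩ := (hp.coprime_iff_not_dvd).2 hw
    refine ⟨y * t, ?_, ?_⟩
    · have hxw : (q : ℤ) ∣ x * w := by
        have : x * w = (x * w - y * z) + y * z := by ring
        rw [this]
        exact dvd_add hdet (Dvd.dvd.mul_left hz _)
      have hx : (q : ℤ) ∣ x := (hp.dvd_or_dvd hxw).resolve_right hw
      exact dvd_sub hx (Dvd.dvd.mul_left hz _)
    · refine ⟨y * s, ?_⟩
      linear_combination (-y) * hst
  · obtain ⟨s, t, hst⟩ := (hp.coprime_iff_not_dvd).2 hz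
    refine ⟨x * t, ⟨x * s, by linear_combination (-x) * hst⟩, ?_⟩
    have h1 : (q : ℤ) ∣ z * (y - x * t * w) := by
      obtain ⟨e, he⟩ := hdet
      refine ⟨-e + x * w * s, ?_⟩
      linear_combination (-1 : ℤ) * he + (-(x * w)) * hst
    exact (hp.dvd_or_dvd h1).resolve_left hz

end arith

section subgroups

/-- `A = Γ₀(N)` inside `Γ₀(N)[1/q]` -/
noncomputable def subA (N q : ℕ) : Subgroup (Delta N q) := (J1 N q).range

/-- `B = δ⁻¹ Γ₀(N) δ` inside `Γ₀(N)[1/q]` -/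
noncomputable def subB (N q : ℕ) [NeZero q] : Subgroup (Delta N q) := (J2 N q).range

variable {N q : ℕ}

theorem mem_subA_iff (hNq : Nat.Coprime N q) (x : Delta N q) :
    x ∈ subA N q ↔ ∃ M : Matrix (Fin 2) (Fin 2) ℤ, Rep q (mat x) 0 M := by
  constructor
  · rintro ⟨γ, rfl⟩
    exact ⟨_, rep_J1 γ⟩
  · rintro ⟨M, hM⟩
    have hdet : M.det = 1 := by
      have := hM.det_eq (det_mat x)
      simpa using this
    have hN : (N : ℤ) ∣ M 1 0 := dvd_of_mem_Delta hNq x.2 hM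
    let γ : SL(2, ℤ) := ⟨M, hdet⟩
    have hmem : γ ∈ Gamma0 N :=
      Gamma0_mem.mpr ((ZMod.intCast_zmod_eq_zero_iff_dvd _ _).mpr hN)
    refine ⟨⟨γ, hmem⟩, ?_⟩
    apply mat_injective
    ext i j
    rw [mat_J1]
    have := hM i j
    simp only [pow_zero, one_mul] at this
    exact this.symm

variable [NeZero q]

theorem mem_subB_iff (hNq : Nat.Coprime N q) (x : Delta N q) :
    x ∈ subB N q ↔ ∃ M : Matrix (Fin 2) (Fin 2) ℤ, mat x = conjMat q (M.map (Int.cast)) := by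
  constructor
  · rintro ⟨γ, rfl⟩
    refine ⟨((γ : SL(2, ℤ)) : Matrix (Fin 2) (Fin 2) ℤ), ?_⟩
    rw [mat_J2]
    congr 1
  · rintro ⟨M, hM⟩
    have hq' : (q : ℚ) ≠ 0 := by exact_mod_cast NeZero.ne q
    have hM0 : Rep q (M.map (Int.cast) : Matrix (Fin 2) (Fin 2) ℚ) 0 M := by
      intro i j
      simp
    have hdet : M.det = 1 := by
      have h1 := conjMat_det (NeZero.ne q) (M.map (Int.cast) : Matrix (Fin 2) (Fin 2) ℚ)
      rw [← hM, det_mat x] at h1
      have := hM0.det_eq h1.symm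
      simpa using this
    have hrep : Rep q (mat x) 1 (conjRep q M) := by
      rw [hM]
      exact rep_conjMat (NeZero.ne q) hM0
    have hN' : (N : ℤ) ∣ (q : ℤ) ^ 2 * M 1 0 := by
      have := dvd_of_mem_Delta hNq x.2 hrep
      simpa [conjRep] using this
    have hN : (N : ℤ) ∣ M 1 0 := by
      have hcop : IsCoprime (N : ℤ) ((q : ℤ) ^ 2) :=
        IsCoprime.pow_right (Nat.isCoprime_iff_coprime.2 hNq)
      exact hcop.dvd_of_dvd_mul_left hN'
    let γ : SL(2, ℤ) := ⟨M, hdet⟩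
    have hmem : γ ∈ Gamma0 N :=
      Gamma0_mem.mpr ((ZMod.intCast_zmod_eq_zero_iff_dvd _ _).mpr hN)
    refine ⟨⟨γ, hmem⟩, ?_⟩
    apply mat_injective
    rw [mat_J2, hM]
    congr 1

/-- an element of `A` not in `B` has an integer matrix with lower-left entry prime to `q` -/
theorem exists_rep_of_mem_subA_not_mem_subB (hNq : Nat.Coprime N q) {k : Delta N q}
    (hA : k ∈ subA N q) (hB : k ∉ subB N q) :
    ∃ K : Matrix (Fin 2) (Fin 2) ℤ, Rep q (mat k) 0 K ∧ K.det = 1 ∧ ¬ (q : ℤ) ∣ K 1 0 := by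
  obtain ⟨K, hK⟩ := (mem_subA_iff hNq k).1 hA
  have hq' : (q : ℚ) ≠ 0 := by exact_mod_cast NeZero.ne q
  refine ⟨K, hK, by simpa using hK.det_eq (det_mat k), ?_⟩
  rintro ⟨c, hc⟩
  apply hB
  rw [mem_subB_iff hNq]
  refine ⟨!![K 0 0, q * K 0 1; c, K 1 1], ?_⟩
  have h := fun i j => hK i j
  simp only [pow_zero, one_mul] at h
  ext i j
  fin_cases i <;> fin_cases j
  · simp [conjMat, h]
  · simp [conjMat, h]; field_simp
  · simp [conjMat, h, hc]
  · simp [conjMat, h]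

/-- an element of `B` not in `A` is `δ⁻¹ M δ` with upper-right entry of `M` prime to `q` -/
theorem exists_rep_of_mem_subB_not_mem_subA (hNq : Nat.Coprime N q) {k : Delta N q}
    (hB : k ∈ subB N q) (hA : k ∉ subA N q) :
    ∃ M : Matrix (Fin 2) (Fin 2) ℤ, mat k = conjMat q (M.map (Int.cast)) ∧ M.det = 1 ∧
      ¬ (q : ℤ) ∣ M 0 1 := by
  obtain ⟨M, hM⟩ := (mem_subB_iff hNq k).1 hB
  have hq' : (q : ℚ) ≠ 0 := by exact_mod_cast NeZero.ne q
  have hM0 : Rep q (M.map (Int.cast) : Matrix (Fin 2) (Fin 2) ℚ) 0 M := by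
    intro i j
    simp
  have hdet : M.det = 1 := by
    have h1 := conjMat_det (NeZero.ne q) (M.map (Int.cast) : Matrix (Fin 2) (Fin 2) ℚ)
    rw [← hM, det_mat k] at h1
    have := hM0.det_eq h1.symm
    simpa using this
  refine ⟨M, hM, hdet, ?_⟩
  rintro ⟨b, hb⟩
  apply hA
  rw [mem_subA_iff hNq]
  refine ⟨!![M 0 0, b; q * M 1 0, M 1 1], ?_⟩
  intro i j
  rw [hM]
  fin_cases i <;> fin_cases j
  · simp [conjMat]
  · simp [conjMat, hb, mul_div_cancel_left₀ _ hq']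
  · simp [conjMat]
  · simp [conjMat]

end subgroups

section sets

variable {N q : ℕ}

theorem not_rep_zero {g : Matrix (Fin 2) (Fin 2) ℚ} {n : ℕ} {M : Matrix (Fin 2) (Fin 2) ℤ}
    (h : Rep q g (n + 1) M) (hM : ¬ AllDvd q M) (M₀ : Matrix (Fin 2) (Fin 2) ℤ) :
    ¬ Rep q g 0 M₀ := by
  intro h0
  apply hM
  have := h0.of_le (m := n + 1) (by simpa using h)
  rw [this]
  exact allDvd_smul q M₀ (Nat.succ_ne_zero n)

theorem rowNZ_of_det_one (hq : q.Prime) {M : Matrix (Fin 2) (Fin 2) ℤ} (h : M.det = 1)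
    (i : Fin 2) : RowNZ q M i := by
  rintro ⟨h0, h1⟩
  have hp : Prime (q : ℤ) := Nat.prime_iff_prime_int.mp hq
  rw [Matrix.det_fin_two] at h
  have : (q : ℤ) ∣ 1 := by
    rw [← h]
    fin_cases i
    · exact dvd_sub (Dvd.dvd.mul_right h0 _) (Dvd.dvd.mul_right h1 _)
    · exact dvd_sub (Dvd.dvd.mul_left h1 _) (Dvd.dvd.mul_left h0 _)
  exact hp.not_dvd_one this

open Classical in
/-- the least exponent `n` with `q^n • g` integral -/
noncomputable def lev (x : Delta N q) : ℕ := Nat.find (exists_rep x)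

theorem lev_le {x : Delta N q} {n : ℕ} {M : Matrix (Fin 2) (Fin 2) ℤ}
    (h : Rep q (mat x) n M) : lev x ≤ n := by
  classical
  exact Nat.find_min' (exists_rep x) ⟨M, h⟩

theorem lev_spec (x : Delta N q) : ∃ M : Matrix (Fin 2) (Fin 2) ℤ, Rep q (mat x) (lev x) M := by
  classical
  exact Nat.find_spec (exists_rep x)

theorem lev_eq {x : Delta N q} {n : ℕ} {M : Matrix (Fin 2) (Fin 2) ℤ}
    (h : Rep q (mat x) n M) (hM : ¬ AllDvd q M) : lev x = n := by
  obtain ⟨M₀, hM₀⟩ := lev_spec x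
  obtain ⟨m, hm⟩ := Nat.exists_eq_add_of_le (lev_le h)
  rcases Nat.eq_zero_or_pos m with rfl | hpos
  · simpa using hm.symm
  · exfalso
    apply hM
    have := hM₀.of_le (m := m) (by rw [← hm]; exact h)
    rw [this]
    exact allDvd_smul q M₀ hpos.ne'

variable [NeZero q]

/-- `SB`: the second row is strictly smaller than the first one. -/
def setSB (N q : ℕ) : Set (Delta N q) :=
  {x | ∃ (n : ℕ) (M : Matrix (Fin 2) (Fin 2) ℤ), Rep q (mat x) (n + 1) M ∧
    (q : ℤ) ∣ M 1 0 ∧ (q : ℤ) ∣ M 1 1 ∧ RowNZ q M 0}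

/-- `SA`: not in `A ⊓ B`, and the second row is at least as large as the first one. -/
def setSA (N q : ℕ) [NeZero q] : Set (Delta N q) :=
  {x | (x ∈ subA N q ∧ x ∉ subB N q) ∨
    ∃ (n : ℕ) (M : Matrix (Fin 2) (Fin 2) ℤ), Rep q (mat x) (n + 1) M ∧ RowNZ q M 1}

open Classical in
/-- the length function -/
noncomputable def len (x : Delta N q) : ℕ := 2 * lev x + (if x ∈ setSA N q then 1 else 0)

omit [NeZero q] in
theorem not_mem_subA_of_rep {x : Delta N q} (hNq : Nat.Coprime N q) {n : ℕ}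
    {M : Matrix (Fin 2) (Fin 2) ℤ} (h : Rep q (mat x) (n + 1) M) (hM : ¬ AllDvd q M) :
    x ∉ subA N q := by
  intro hA
  obtain ⟨M₀, hM₀⟩ := (mem_subA_iff hNq x).1 hA
  exact not_rep_zero h hM M₀ hM₀

theorem cover (hNq : Nat.Coprime N q) (x : Delta N q) :
    (x ∈ subA N q ∧ x ∈ subB N q) ∨ x ∈ setSA N q ∨ x ∈ setSB N q := by
  obtain ⟨n, M, hM⟩ := exists_rep x
  induction n generalizing M with
  | zero =>
    have hA : x ∈ subA N q := (mem_subA_iff hNq x).2 ⟨M, hM⟩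
    by_cases hB : x ∈ subB N q
    · exact Or.inl ⟨hA, hB⟩
    · exact Or.inr (Or.inl (Or.inl ⟨hA, hB⟩))
  | succ n ih =>
    by_cases hall : AllDvd q M
    · obtain ⟨M', hM', -⟩ := hM.pred (NeZero.ne q) hall
      exact ih M' hM'
    · by_cases h1 : (q : ℤ) ∣ M 1 0 ∧ (q : ℤ) ∣ M 1 1
      · refine Or.inr (Or.inr ⟨n, M, hM, h1.1, h1.2, ?_⟩)
        intro h0
        exact hall (allDvd_of_rows h0 h1)
      · exact Or.inr (Or.inl (Or.inr ⟨n, M, hM, h1⟩))

omit [NeZero q] in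
theorem notSB_of_memA (hNq : Nat.Coprime N q) {x : Delta N q} (hA : x ∈ subA N q) :
    x ∉ setSB N q := by
  rintro ⟨n, M, hM, -, -, h0⟩
  exact not_mem_subA_of_rep hNq hM h0.not_allDvd hA

theorem notSA_of_mem (hNq : Nat.Coprime N q) {x : Delta N q} (hA : x ∈ subA N q)
    (hB : x ∈ subB N q) : x ∉ setSA N q := by
  rintro (⟨-, h⟩ | ⟨n, M, hM, h1⟩)
  · exact h hB
  · exact not_mem_subA_of_rep hNq hM h1.not_allDvd hA

theorem disj (hNq : Nat.Coprime N q) {x : Delta N q} (hSA : x ∈ setSA N q) :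
    x ∉ setSB N q := by
  rcases hSA with ⟨hA, -⟩ | ⟨n, M, hM, h1⟩
  · exact notSB_of_memA hNq hA
  · rintro ⟨n', M', hM', h10, h11, h0⟩
    obtain ⟨-, rfl⟩ := hM.exponent_unique hM' h1.not_allDvd h0.not_allDvd
    exact h1 ⟨h10, h11⟩

omit [NeZero q] in
theorem lev_one : lev (1 : Delta N q) = 0 := by
  have : Rep q (mat (1 : Delta N q)) 0 1 := by
    rw [mat_one]
    exact Rep.one
  exact Nat.le_zero.1 (lev_le this)

theorem len_one (hNq : Nat.Coprime N q) : len (1 : Delta N q) = 0 := by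
  have h : (1 : Delta N q) ∉ setSA N q :=
    notSA_of_mem hNq (Subgroup.one_mem _) (Subgroup.one_mem _)
  simp [len, lev_one, h]

theorem len_of_SA {x : Delta N q} (h : x ∈ setSA N q) : len x = 2 * lev x + 1 := by
  simp [len, h]

theorem len_of_not_SA {x : Delta N q} (h : x ∉ setSA N q) : len x = 2 * lev x := by
  simp [len, h]

end sets

section pingpong

variable {N q : ℕ} [NeZero q]

theorem mat_10_of_mem_subB (hNq : Nat.Coprime N q) {x : Delta N q} (hB : x ∈ subB N q) :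
    ∃ c : ℤ, mat x 1 0 = (q : ℚ) * c := by
  obtain ⟨M, hM⟩ := (mem_subB_iff hNq x).1 hB
  exact ⟨M 1 0, by rw [hM]; rfl⟩

theorem mat_01_of_mem_subB (hNq : Nat.Coprime N q) {x : Delta N q} (hB : x ∈ subB N q) :
    ∃ b : ℤ, mat x 0 1 = (b : ℚ) / q := by
  obtain ⟨M, hM⟩ := (mem_subB_iff hNq x).1 hB
  exact ⟨M 0 1, by rw [hM]; rfl⟩

theorem pingA (hq : q.Prime) (hNq : Nat.Coprime N q) (k : Delta N q) (hkA : k ∈ subA N q)
    (hkB : k ∉ subB N q) (g : Delta N q)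
    (hg : (g ∈ subA N q ∧ g ∈ subB N q) ∨ g ∈ setSB N q) : k * g ∈ setSA N q := by
  have hp : Prime (q : ℤ) := Nat.prime_iff_prime_int.mp hq
  obtain ⟨K, hK, -, hKq⟩ := exists_rep_of_mem_subA_not_mem_subB hNq hkA hkB
  rcases hg with ⟨hgA, hgB⟩ | ⟨n, M, hM, h10, h11, h0⟩
  · -- `g ∈ A ⊓ B`
    obtain ⟨G', hG'⟩ := (mem_subA_iff hNq g).1 hgA
    have hG'det : G'.det = 1 := by simpa using hG'.det_eq (det_mat g)
    have hG'q : (q : ℤ) ∣ G' 1 0 := by
      obtain ⟨c, hc⟩ := mat_10_of_mem_subB hNq hgB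
      have := hG' 1 0
      rw [pow_zero, one_mul, hc] at this
      exact ⟨c, by exact_mod_cast this.symm⟩
    have hrep : Rep q (mat (k * g)) 0 (K * G') := by
      rw [mat_mul]
      exact hK.mul hG'
    refine Or.inl ⟨(mem_subA_iff hNq _).2 ⟨_, hrep⟩, ?_⟩
    intro hB
    obtain ⟨c, hc⟩ := mat_10_of_mem_subB hNq hB
    have h1 := hrep 1 0
    rw [pow_zero, one_mul, hc] at h1
    have h2 : (q : ℤ) ∣ (K * G') 1 0 := ⟨c, by exact_mod_cast h1.symm⟩
    simp only [Matrix.mul_apply, Fin.sum_univ_two] at h2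
    have h3 : (q : ℤ) ∣ K 1 0 * G' 0 0 := by
      have := dvd_sub h2 (Dvd.dvd.mul_left hG'q (K 1 1))
      simpa using this
    rcases hp.dvd_or_dvd h3 with h | h
    · exact hKq h
    · have : (q : ℤ) ∣ G'.det := by
        rw [Matrix.det_fin_two]
        exact dvd_sub (Dvd.dvd.mul_right h _) (Dvd.dvd.mul_left hG'q _)
      rw [hG'det] at this
      exact hp.not_dvd_one this
  · -- `g ∈ SB`
    have hrep : Rep q (mat (k * g)) (n + 1) (K * M) := by
      rw [mat_mul]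
      have := hK.mul hM
      rwa [zero_add] at this
    refine Or.inr ⟨n, K * M, hrep, ?_⟩
    rintro ⟨e0, e1⟩
    simp only [Matrix.mul_apply, Fin.sum_univ_two] at e0 e1
    apply h0
    constructor
    · have : (q : ℤ) ∣ K 1 0 * M 0 0 := by
        have := dvd_sub e0 (Dvd.dvd.mul_left h10 (K 1 1))
        simpa using this
      exact (hp.dvd_or_dvd this).resolve_left hKq
    · have : (q : ℤ) ∣ K 1 0 * M 0 1 := by
        have := dvd_sub e1 (Dvd.dvd.mul_left h11 (K 1 1))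
        simpa using this
      exact (hp.dvd_or_dvd this).resolve_left hKq

/-- elements of `C ∪ SA` have a representative with second row not divisible by `q` -/
theorem exists_rep_rowNZ (hq : q.Prime) (hNq : Nat.Coprime N q) {g : Delta N q}
    (hg : (g ∈ subA N q ∧ g ∈ subB N q) ∨ g ∈ setSA N q) :
    ∃ (n : ℕ) (M : Matrix (Fin 2) (Fin 2) ℤ), Rep q (mat g) n M ∧ RowNZ q M 1 := by
  have hA : g ∈ subA N q → ∃ (n : ℕ) (M : Matrix (Fin 2) (Fin 2) ℤ),
      Rep q (mat g) n M ∧ RowNZ q M 1 := by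
    intro hgA
    obtain ⟨G', hG'⟩ := (mem_subA_iff hNq g).1 hgA
    have hG'det : G'.det = 1 := by simpa using hG'.det_eq (det_mat g)
    exact ⟨0, G', hG', rowNZ_of_det_one hq hG'det 1⟩
  rcases hg with ⟨hgA, -⟩ | ⟨hgA, -⟩ | ⟨n, M, hM, h1⟩
  · exact hA hgA
  · exact hA hgA
  · exact ⟨n + 1, M, hM, h1⟩

theorem pingB (hq : q.Prime) (hNq : Nat.Coprime N q) (k : Delta N q) (hkB : k ∈ subB N q)
    (hkA : k ∉ subA N q) (g : Delta N q)
    (hg : (g ∈ subA N q ∧ g ∈ subB N q) ∨ g ∈ setSA N q) : k * g ∈ setSB N q := by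
  have hp : Prime (q : ℤ) := Nat.prime_iff_prime_int.mp hq
  obtain ⟨Mk, hMk, -, hMkq⟩ := exists_rep_of_mem_subB_not_mem_subA hNq hkB hkA
  have hMk0 : Rep q (Mk.map (Int.cast) : Matrix (Fin 2) (Fin 2) ℚ) 0 Mk := by
    intro i j
    simp
  have hkrep : Rep q (mat k) 1 (conjRep q Mk) := by
    rw [hMk]
    exact rep_conjMat (NeZero.ne q) hMk0
  obtain ⟨n, M, hM, h1⟩ := exists_rep_rowNZ hq hNq hg
  have hrep : Rep q (mat (k * g)) (n + 1) (conjRep q Mk * M) := by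
    rw [mat_mul, add_comm]
    exact hkrep.mul hM
  refine ⟨n, _, hrep, ?_, ?_, ?_⟩
  · simp only [conjRep, Matrix.mul_apply, Fin.sum_univ_two, Matrix.of_apply, Matrix.cons_val_one,
      Matrix.cons_val_zero]
    exact dvd_add ⟨(q : ℤ) * Mk 1 0 * M 0 0, by ring⟩ ⟨Mk 1 1 * M 1 0, by ring⟩
  · simp only [conjRep, Matrix.mul_apply, Fin.sum_univ_two, Matrix.of_apply, Matrix.cons_val_one,
      Matrix.cons_val_zero]
    exact dvd_add ⟨(q : ℤ) * Mk 1 0 * M 0 1, by ring⟩ ⟨Mk 1 1 * M 1 1, by ring⟩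
  · rintro ⟨e0, e1⟩
    simp only [conjRep, Matrix.mul_apply, Fin.sum_univ_two, Matrix.of_apply, Matrix.cons_val_one,
      Matrix.cons_val_zero] at e0 e1
    apply h1
    constructor
    · have : (q : ℤ) ∣ Mk 0 1 * M 1 0 := by
        have := dvd_sub e0 (⟨Mk 0 0 * M 0 0, by ring⟩ : (q : ℤ) ∣ (q : ℤ) * Mk 0 0 * M 0 0)
        simpa using this
      exact (hp.dvd_or_dvd this).resolve_left hMkq
    · have : (q : ℤ) ∣ Mk 0 1 * M 1 1 := by
        have := dvd_sub e1 (⟨Mk 0 0 * M 0 1, by ring⟩ : (q : ℤ) ∣ (q : ℤ) * Mk 0 0 * M 0 1)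
        simpa using this
      exact (hp.dvd_or_dvd this).resolve_left hMkq

omit [NeZero q] in
theorem not_dvd_of_coprime (hq : q.Prime) (hNq : Nat.Coprime N q) : ¬ (q : ℤ) ∣ (N : ℤ) := by
  intro h
  have h' : q ∣ N := by exact_mod_cast h
  have : q ∣ 1 := by
    have := Nat.dvd_gcd h' (dvd_refl q)
    rwa [hNq] at this
  exact hq.one_lt.ne' (Nat.dvd_one.1 this)

theorem descA (hq : q.Prime) (hNq : Nat.Coprime N q) (g : Delta N q) (hg : g ∈ setSA N q) :
    ∃ k, k ∈ subA N q ∧ k ∉ subB N q ∧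
      ((k⁻¹ * g ∈ subA N q ∧ k⁻¹ * g ∈ subB N q) ∨ k⁻¹ * g ∈ setSB N q) ∧
      len (k⁻¹ * g) < len g := by
  have hp : Prime (q : ℤ) := Nat.prime_iff_prime_int.mp hq
  rcases hg with ⟨hgA, hgB⟩ | ⟨n, M, hM, h1⟩
  · refine ⟨g, hgA, hgB, Or.inl ?_, ?_⟩
    · rw [inv_mul_cancel]
      exact ⟨Subgroup.one_mem _, Subgroup.one_mem _⟩
    · rw [inv_mul_cancel, len_one hNq, len_of_SA (Or.inl ⟨hgA, hgB⟩)]
      omega
  · -- non-integral case
    have hgSA : g ∈ setSA N q := Or.inr ⟨n, M, hM, h1⟩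
    have hdet : M.det = (q : ℤ) ^ (2 * (n + 1)) := hM.det_eq (det_mat g)
    have hqdet : (q : ℤ) ∣ M 0 0 * M 1 1 - M 0 1 * M 1 0 := by
      rw [← Matrix.det_fin_two, hdet]
      exact dvd_pow_self _ (by omega)
    obtain ⟨l, hl0, hl1⟩ := exists_prop_mod hq hqdet h1
    obtain ⟨u, v, huv⟩ := Nat.isCoprime_iff_coprime.2 hNq
    -- the matrix `K`
    let K : Matrix (Fin 2) (Fin 2) ℤ := !![l * N + q, -(u - v * l); N, v]
    have hKdet : K.det = 1 := by
      rw [Matrix.det_fin_two_of]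
      linear_combination huv
    let γ : SL(2, ℤ) := ⟨K, hKdet⟩
    have hγ : γ ∈ Gamma0 N :=
      Gamma0_mem.mpr ((ZMod.intCast_zmod_eq_zero_iff_dvd _ _).mpr (by
        show (N : ℤ) ∣ K 1 0
        simp [K]))
    let k : Delta N q := J1 N q ⟨γ, hγ⟩
    have hkrep : Rep q (mat k) 0 K := rep_J1 ⟨γ, hγ⟩
    have hkA : k ∈ subA N q := ⟨_, rfl⟩
    have hkB : k ∉ subB N q := by
      intro hB
      obtain ⟨c, hc⟩ := mat_10_of_mem_subB hNq hB
      have h1 := hkrep 1 0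
      rw [pow_zero, one_mul, hc] at h1
      have h2 : (q : ℤ) ∣ K 1 0 := ⟨c, by exact_mod_cast h1.symm⟩
      exact not_dvd_of_coprime hq hNq (by simpa [K] using h2)
    have hrep : Rep q (mat (k⁻¹ * g)) (n + 1) (K.adjugate * M) := by
      rw [mat_mul, mat_inv]
      have := hkrep.adjugate.mul hM
      rwa [zero_add] at this
    have hrow1 : ∀ j, (q : ℤ) ∣ (K.adjugate * M) 1 j := by
      intro j
      have e : (K.adjugate * M) 1 j = -(N : ℤ) * (M 0 j - l * M 1 j) + q * M 1 j := by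
        rw [Matrix.adjugate_fin_two]
        simp only [Matrix.mul_apply, Fin.sum_univ_two, Matrix.of_apply, Matrix.cons_val_one,
          Matrix.cons_val_zero, K]
        ring
      rw [e]
      refine dvd_add (Dvd.dvd.mul_left ?_ _) (dvd_mul_right _ _)
      fin_cases j
      · exact hl0
      · exact hl1
    have hrow0 : RowNZ q (K.adjugate * M) 0 := by
      intro h0
      have hall : AllDvd q (K.adjugate * M) := allDvd_of_rows h0 ⟨hrow1 0, hrow1 1⟩
      have hall' := hall.mul_left K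
      rw [← Matrix.mul_assoc, Matrix.mul_adjugate, hKdet, one_smul, Matrix.one_mul] at hall'
      exact h1.not_allDvd hall'
    have hSB : k⁻¹ * g ∈ setSB N q := ⟨n, _, hrep, hrow1 0, hrow1 1, hrow0⟩
    refine ⟨k, hkA, hkB, Or.inr hSB, ?_⟩
    have hnSA : k⁻¹ * g ∉ setSA N q := fun h => disj hNq h hSB
    rw [len_of_not_SA hnSA, len_of_SA hgSA, lev_eq hM h1.not_allDvd]
    have := lev_le hrep
    omega

theorem descB (hq : q.Prime) (hNq : Nat.Coprime N q) (g : Delta N q) (hg : g ∈ setSB N q) :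
    ∃ k, k ∈ subB N q ∧ k ∉ subA N q ∧
      ((k⁻¹ * g ∈ subA N q ∧ k⁻¹ * g ∈ subB N q) ∨ k⁻¹ * g ∈ setSA N q) ∧
      len (k⁻¹ * g) < len g := by
  have hp : Prime (q : ℤ) := Nat.prime_iff_prime_int.mp hq
  have hq' : (q : ℚ) ≠ 0 := by exact_mod_cast NeZero.ne q
  have hgSB := hg
  obtain ⟨n, M, hM, ⟨c0, hc0⟩, ⟨c1, hc1⟩, h0⟩ := hg
  have hdet : M.det = (q : ℤ) ^ (2 * (n + 1)) := hM.det_eq (det_mat g)
  have hqdet : (q : ℤ) ∣ c0 * M 0 1 - c1 * M 0 0 := by
    rw [Matrix.det_fin_two, hc0, hc1] at hdet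
    have e : (q : ℤ) * (c0 * M 0 1 - c1 * M 0 0) = (q : ℤ) * (-(q : ℤ) ^ (2 * n + 1)) := by
      have : (q : ℤ) ^ (2 * (n + 1)) = q * q ^ (2 * n + 1) := by ring
      rw [this] at hdet
      linear_combination -hdet
    have hq0 : (q : ℤ) ≠ 0 := by exact_mod_cast NeZero.ne q
    rw [mul_left_cancel₀ hq0 e]
    exact (dvd_pow_self _ (by omega)).neg_right
  obtain ⟨μ, hμ0, hμ1⟩ := exists_prop_mod hq hqdet h0
  obtain ⟨u, v, huv⟩ := Nat.isCoprime_iff_coprime.2 hNq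
  -- `d ≡ 1 mod N`, `d ≡ μ mod q`
  let d : ℤ := v * q + μ * u * N
  have hdN : (N : ℤ) ∣ d - 1 := ⟨(μ - 1) * u, by simp only [d]; linear_combination huv⟩
  have hdq : (q : ℤ) ∣ d - μ := ⟨v * (1 - μ), by simp only [d]; linear_combination μ * huv⟩
  let K₀ : Matrix (Fin 2) (Fin 2) ℤ := !![1, 1; d - 1, d]
  have hK₀det : K₀.det = 1 := by
    rw [Matrix.det_fin_two_of]
    ring
  let γ : SL(2, ℤ) := ⟨K₀, hK₀det⟩
  have hγ : γ ∈ Gamma0 N :=
    Gamma0_mem.mpr ((ZMod.intCast_zmod_eq_zero_iff_dvd _ _).mpr (by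
      show (N : ℤ) ∣ K₀ 1 0
      simpa [K₀] using hdN))
  let k : Delta N q := J2 N q ⟨γ, hγ⟩
  have hkmat : ∀ i j, mat k i j = conjMat q (K₀.map (Int.cast)) i j := by
    intro i j
    rfl
  have hkB : k ∈ subB N q := ⟨_, rfl⟩
  have hkA : k ∉ subA N q := by
    intro hA
    obtain ⟨M₀, hM₀⟩ := (mem_subA_iff hNq k).1 hA
    have h1 := hM₀ 0 1
    rw [pow_zero, one_mul, hkmat, conjMat_01] at h1
    simp only [K₀, Matrix.map_apply, Matrix.of_apply, Matrix.cons_val_one, Matrix.cons_val_zero,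
      Int.cast_one] at h1
    have h2 : (q : ℤ) * M₀ 0 1 = 1 := by
      have : ((q : ℚ)) * (M₀ 0 1 : ℚ) = 1 := by
        rw [← h1]
        field_simp
      exact_mod_cast this
    exact hp.not_dvd_one ⟨_, h2.symm⟩
  -- the entries of `k⁻¹ g`
  have hP : ∀ j, ∃ P : ℤ, d * M 0 j - (if j = 0 then c0 else c1) = q * P := by
    intro j
    have : (q : ℤ) ∣ d * M 0 j - (if j = 0 then c0 else c1) := by
      have e : d * M 0 j - (if j = 0 then c0 else c1)
          = (d - μ) * M 0 j - ((if j = 0 then c0 else c1) - μ * M 0 j) := by ring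
      rw [e]
      refine dvd_sub (Dvd.dvd.mul_right hdq _) ?_
      fin_cases j
      · simpa using hμ0
      · simpa using hμ1
    exact this
  choose P hP using hP
  let M'' : Matrix (Fin 2) (Fin 2) ℤ :=
    !![P 0, P 1; -(d - 1) * M 0 0 + c0, -(d - 1) * M 0 1 + c1]
  have hg00 := hM 0 0
  have hg01 := hM 0 1
  have hg10 := hM 1 0
  have hg11 := hM 1 1
  rw [hc0] at hg10
  rw [hc1] at hg11
  have hP0 := hP 0
  have hP1 := hP 1
  simp only [if_true] at hP0
  simp only [Fin.isValue, one_ne_zero, if_false] at hP1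
  have hP0' : (d : ℚ) * (M 0 0 : ℚ) - c0 = q * P 0 := by exact_mod_cast hP0
  have hP1' : (d : ℚ) * (M 0 1 : ℚ) - c1 = q * P 1 := by exact_mod_cast hP1
  have hrep : Rep q (mat (k⁻¹ * g)) n M'' := by
    rw [mat_mul, mat_inv]
    intro i j
    rw [Matrix.adjugate_fin_two]
    simp only [Matrix.mul_apply, Fin.sum_univ_two, Matrix.of_apply, hkmat, conjMat_00, conjMat_01,
      conjMat_10, conjMat_11]
    simp only [K₀, Matrix.map_apply, Matrix.of_apply, Matrix.cons_val_one, Matrix.cons_val_zero,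
      Int.cast_one, Int.cast_sub]
    push_cast at hg10 hg11
    rw [pow_succ] at hg00 hg01 hg10 hg11
    fin_cases i <;> fin_cases j
    · show (q : ℚ) ^ n * ((d : ℚ) * mat g 0 0 + -(1 / q) * mat g 1 0) = ((M'' 0 0 : ℤ) : ℚ)
      have : ((M'' 0 0 : ℤ) : ℚ) = P 0 := rfl
      rw [this]
      apply mul_left_cancel₀ hq'
      rw [← hP0', ← hg00]
      have e : (c0 : ℚ) = (q : ℚ) ^ n * mat g 1 0 := by
        apply mul_left_cancel₀ hq'
        rw [← hg10]; ring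
      rw [e]
      field_simp
      ring
    · show (q : ℚ) ^ n * ((d : ℚ) * mat g 0 1 + -(1 / q) * mat g 1 1) = ((M'' 0 1 : ℤ) : ℚ)
      have : ((M'' 0 1 : ℤ) : ℚ) = P 1 := rfl
      rw [this]
      apply mul_left_cancel₀ hq'
      rw [← hP1', ← hg01]
      have e : (c1 : ℚ) = (q : ℚ) ^ n * mat g 1 1 := by
        apply mul_left_cancel₀ hq'
        rw [← hg11]; ring
      rw [e]
      field_simp
      ring
    · show (q : ℚ) ^ n * (-((q : ℚ) * ((d : ℚ) - 1)) * mat g 0 0 + 1 * mat g 1 0)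
          = ((M'' 1 0 : ℤ) : ℚ)
      have : ((M'' 1 0 : ℤ) : ℚ) = -((d : ℚ) - 1) * M 0 0 + c0 := by
        simp [M'']
      rw [this, ← hg00]
      have e : (c0 : ℚ) = (q : ℚ) ^ n * mat g 1 0 := by
        apply mul_left_cancel₀ hq'
        rw [← hg10]; ring
      rw [e]
      ring
    · show (q : ℚ) ^ n * (-((q : ℚ) * ((d : ℚ) - 1)) * mat g 0 1 + 1 * mat g 1 1)
          = ((M'' 1 1 : ℤ) : ℚ)
      have : ((M'' 1 1 : ℤ) : ℚ) = -((d : ℚ) - 1) * M 0 1 + c1 := by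
        simp [M'']
      rw [this, ← hg01]
      have e : (c1 : ℚ) = (q : ℚ) ^ n * mat g 1 1 := by
        apply mul_left_cancel₀ hq'
        rw [← hg11]; ring
      rw [e]
      ring
  have hrow1 : RowNZ q M'' 1 := by
    rintro ⟨e0, e1⟩
    apply h0
    constructor
    · have : M 0 0 = M'' 1 0 + q * P 0 := by
        simp only [M'', Matrix.of_apply, Matrix.cons_val_one, Matrix.cons_val_zero]
        linear_combination hP0
      rw [this]
      exact dvd_add e0 (dvd_mul_right _ _)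
    · have : M 0 1 = M'' 1 1 + q * P 1 := by
        simp only [M'', Matrix.of_apply, Matrix.cons_val_one, Matrix.cons_val_zero]
        linear_combination hP1
      rw [this]
      exact dvd_add e1 (dvd_mul_right _ _)
  have hmem : (k⁻¹ * g ∈ subA N q ∧ k⁻¹ * g ∈ subB N q) ∨ k⁻¹ * g ∈ setSA N q := by
    rcases Nat.eq_zero_or_pos n with hn | hn
    · subst hn
      have hA : k⁻¹ * g ∈ subA N q := (mem_subA_iff hNq _).2 ⟨_, hrep⟩
      by_cases hB : k⁻¹ * g ∈ subB N q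
      · exact Or.inl ⟨hA, hB⟩
      · exact Or.inr (Or.inl ⟨hA, hB⟩)
    · obtain ⟨n', rfl⟩ := Nat.exists_eq_succ_of_ne_zero hn.ne'
      exact Or.inr (Or.inr ⟨n', M'', hrep, hrow1⟩)
  refine ⟨k, hkB, hkA, hmem, ?_⟩
  have hgnSA : g ∉ setSA N q := fun h => disj hNq h hgSB
  rw [len_of_not_SA hgnSA, lev_eq hM h0.not_allDvd]
  have h1 := lev_le hrep
  by_cases hSA : k⁻¹ * g ∈ setSA N q
  · rw [len_of_SA hSA]; omega
  · rw [len_of_not_SA hSA]; omega

/-- The ping-pong data for `Γ₀(N)` and `δ⁻¹ Γ₀(N) δ` inside `Γ₀(N)[1/q]`. -/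
noncomputable def pingPong (hq : q.Prime) (hNq : Nat.Coprime N q) :
    PingPong (subA N q) (subB N q) where
  SA := setSA N q
  SB := setSB N q
  len := len
  cover := cover hNq
  notSA_of_mem := fun _ hA hB => notSA_of_mem hNq hA hB
  notSB_of_mem := fun _ hA _ => notSB_of_memA hNq hA
  disj := fun _ h => disj hNq h
  pingA := pingA hq hNq
  pingB := pingB hq hNq
  descA := descA hq hNq
  descB := descB hq hNq

end pingpong

end Fermat.Agent.S41.H225
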