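import Mathlib
import Fermat.Agent.S41.H225.AmalgPing

/-!
# S41 / block IH-AM (helper225) — the amalgam theorem for `Γ₀(N)[1/q]`

`Delta N q = Γ₀(N)[1/q] ≤ SL(2, ℚ)` is the amalgamated product of `J1(Γ₀(N))` (integral matrices)
and `J2(Γ₀(N)) = δ⁻¹ Γ₀(N) δ` (`δ = diag(q, 1)`) over their intersection:

* `amalg_ext` : homomorphisms `f₁ f₂ : Γ₀(N) →* K` (`K` any group) with
  `J1 g = J2 g' → f₁ g = f₂ g'` extend uniquely to `Φ : Delta N q →* K`, `Φ ∘ J1 = f₁`,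
  `Φ ∘ J2 = f₂`;
* `J1_range_sup_J2_range` : `Delta N q` is generated by the two copies of `Γ₀(N)`;
* `J1_eq_J2_iff` : `J1 g = J2 g'` iff `q ∣ g 1 0` and `g' = [[a, q b], [c / q, d]]`.
-/

set_option autoImplicit false

namespace Fermat.Agent.S41.H225

open Matrix CongruenceSubgroup
open scoped MatrixGroups

variable {N q : ℕ} [NeZero q]

/-- **Amalgam theorem** (Ihara, Serre): `Γ₀(N)[1/q] = Γ₀(N) *_{Γ₀(Nq)} δ⁻¹ Γ₀(N) δ`. -/
theorem amalg_ext (hq : q.Prime) (hNq : Nat.Coprime N q) {K : Type*} [Group K]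
    (f₁ f₂ : Gamma0 N →* K)
    (h : ∀ g g' : Gamma0 N, J1 N q g = J2 N q g' → f₁ g = f₂ g') :
    ∃! Φ : Delta N q →* K, (∀ g, Φ (J1 N q g) = f₁ g) ∧ (∀ g, Φ (J2 N q g) = f₂ g) := by
  -- transport `f₁`, `f₂` to the ranges
  let e₁ := MonoidHom.ofInjective (J1_injective N q)
  let e₂ := MonoidHom.ofInjective (J2_injective N q)
  let fA : subA N q →* K := f₁.comp e₁.symm.toMonoidHom
  let fB : subB N q →* K := f₂.comp e₂.symm.toMonoidHom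
  have hfA : ∀ g : Gamma0 N, fA ⟨J1 N q g, ⟨g, rfl⟩⟩ = f₁ g := by
    intro g
    show f₁ (e₁.symm ⟨J1 N q g, ⟨g, rfl⟩⟩) = f₁ g
    congr 1
    rw [MulEquiv.symm_apply_eq]
    rfl
  have hfB : ∀ g : Gamma0 N, fB ⟨J2 N q g, ⟨g, rfl⟩⟩ = f₂ g := by
    intro g
    show f₂ (e₂.symm ⟨J2 N q g, ⟨g, rfl⟩⟩) = f₂ g
    congr 1
    rw [MulEquiv.symm_apply_eq]
    rfl
  have hf : ∀ (c : Delta N q) (hA : c ∈ subA N q) (hB : c ∈ subB N q),
      fA ⟨c, hA⟩ = fB ⟨c, hB⟩ := by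
    rintro c ⟨g, rfl⟩ ⟨g', hg'⟩
    have e1 : fB ⟨J1 N q g, ⟨g', hg'⟩⟩ = fB ⟨J2 N q g', ⟨g', rfl⟩⟩ := by
      congr 1
      exact Subtype.ext hg'.symm
    rw [hfA, e1, hfB]
    exact h g g' hg'.symm
  obtain ⟨Φ, ⟨hΦA, hΦB⟩, huniq⟩ := (pingPong hq hNq).existsUnique_extension fA fB hf
  refine ⟨Φ, ⟨fun g => ?_, fun g => ?_⟩, ?_⟩
  · rw [← hfA g]
    exact hΦA ⟨J1 N q g, ⟨g, rfl⟩⟩
  · rw [← hfB g]
    exact hΦB ⟨J2 N q g, ⟨g, rfl⟩⟩
  · rintro Ψ ⟨hΨ1, hΨ2⟩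
    apply huniq
    constructor
    · rintro ⟨_, ⟨g, rfl⟩⟩
      rw [hfA]
      exact hΨ1 g
    · rintro ⟨_, ⟨g, rfl⟩⟩
      rw [hfB]
      exact hΨ2 g

/-- `Γ₀(N)[1/q]` is generated by `Γ₀(N)` and `δ⁻¹ Γ₀(N) δ`. -/
theorem J1_range_sup_J2_range (hq : q.Prime) (hNq : Nat.Coprime N q) :
    (J1 N q).range ⊔ (J2 N q).range = ⊤ :=
  (pingPong hq hNq).sup_eq_top

/-- The intersection of the two copies of `Γ₀(N)` is `Γ₀(N q)`. -/
theorem J1_eq_J2_iff (g g' : Gamma0 N) :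
    J1 N q g = J2 N q g' ↔
      (g : SL(2, ℤ)) 0 0 = (g' : SL(2, ℤ)) 0 0 ∧ (q : ℤ) * (g : SL(2, ℤ)) 0 1 = (g' : SL(2, ℤ)) 0 1 ∧
      (g : SL(2, ℤ)) 1 0 = (q : ℤ) * (g' : SL(2, ℤ)) 1 0 ∧ (g : SL(2, ℤ)) 1 1 = (g' : SL(2, ℤ)) 1 1 := by
  have hq' : (q : ℚ) ≠ 0 := by exact_mod_cast NeZero.ne q
  constructor
  · intro h
    have hm : mat (J1 N q g) = mat (J2 N q g') := by rw [h]
    rw [mat_J2] at hm
    have e00 := congrFun (congrFun hm 0) 0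
    have e01 := congrFun (congrFun hm 0) 1
    have e10 := congrFun (congrFun hm 1) 0
    have e11 := congrFun (congrFun hm 1) 1
    rw [conjMat_00, mat_J1, mat_J1] at e00
    rw [conjMat_01, mat_J1, mat_J1] at e01
    rw [conjMat_10, mat_J1, mat_J1] at e10
    rw [conjMat_11, mat_J1, mat_J1] at e11
    refine ⟨by exact_mod_cast e00, ?_, by exact_mod_cast e10, by exact_mod_cast e11⟩
    have : (q : ℚ) * (((g : SL(2, ℤ)) 0 1 : ℤ) : ℚ) = (((g' : SL(2, ℤ)) 0 1 : ℤ) : ℚ) := by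
      rw [e01]
      field_simp
    exact_mod_cast this
  · rintro ⟨e00, e01, e10, e11⟩
    apply mat_injective
    rw [mat_J2]
    ext i j
    fin_cases i <;> fin_cases j
    · show mat (J1 N q g) 0 0 = conjMat q (mat (J1 N q g')) 0 0
      rw [conjMat_00, mat_J1, mat_J1, e00]
    · show mat (J1 N q g) 0 1 = conjMat q (mat (J1 N q g')) 0 1
      rw [conjMat_01, mat_J1, mat_J1, ← e01]
      push_cast
      field_simp
    · show mat (J1 N q g) 1 0 = conjMat q (mat (J1 N q g')) 1 0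
      rw [conjMat_10, mat_J1, mat_J1, e10]
      push_cast
      ring
    · show mat (J1 N q g) 1 1 = conjMat q (mat (J1 N q g')) 1 1
      rw [conjMat_11, mat_J1, mat_J1, e11]

end Fermat.Agent.S41.H225
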