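import Mathlib
import Fermat.Agent.S41.Spec.Core
import Fermat.Agent.S41.Spec.PD
import Fermat.Agent.S41.Spec.Occ

/-!
# S41, GLUE-A (helper225): from the blocks to an integral eigenclass in `ker t₁ ∩ ker t₂`

* `redZ`, `CZ`, `liftCZ`, `hT` : reduction mod `p`, the lattices `C_n(ℤ)`, operators on them,
  `T_l` with an explicit primality proof;
* `glueCore` : instantiation of CORE (`Spec.RibetCoreStatement`) at `A = C_N(ℤ)`,
  `B = C_{N q}(ℤ)`, abstract eigensystem `a` on the primes in `P`;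
* `glueA` : HK + PD-HECKE + LIFT + CuspFree + IH (`IharaEigenStatement`) + OCC + CORE and the
  hypotheses of S41 give `y : Γ₀(N q') → ℤ` cuspidal, `t₁ y = t₂ y = 0`,
  `y ∉ p Hom(Γ₀(N q'), ℤ)`, `T_l y ≡ a_l(W) y mod p` for all good primes `l ∤ N q'`, `l ≠ p`.
-/

set_option autoImplicit false
set_option linter.style.haveILetI false

open scoped CongruenceSubgroup MatrixGroups

namespace Fermat.Agent.S41.H225

open CongruenceSubgroup Fermat.Agent.S29.H642 Fermat.Agent.S41.Spec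


/-! ## GlueRed -/

section Red

variable (p : ℕ) {G : Type*} [AddZeroClass G]

/-- Reduction mod `p` of an integral additive character. -/
def redZ (x : G →+ ℤ) : G →+ ZMod p := (Int.castAddHom (ZMod p)).comp x

@[simp] lemma redZ_apply (x : G →+ ℤ) (g : G) : redZ p x g = ((x g : ℤ) : ZMod p) := rfl

lemma redZ_zero : redZ p (0 : G →+ ℤ) = 0 := by
  ext g; simp

lemma redZ_add (x y : G →+ ℤ) : redZ p (x + y) = redZ p x + redZ p y := by
  ext g; simp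

lemma redZ_sub (x y : G →+ ℤ) : redZ p (x - y) = redZ p x - redZ p y := by
  ext g; simp

lemma redZ_neg (x : G →+ ℤ) : redZ p (-x) = - redZ p x := by
  ext g; simp

lemma redZ_zsmul (c : ℤ) (x : G →+ ℤ) : redZ p (c • x) = (c : ZMod p) • redZ p x := by
  ext g; simp

lemma redZ_nsmul (c : ℕ) (x : G →+ ℤ) : redZ p (c • x) = (c : ZMod p) • redZ p x := by
  ext g; simp

lemma redZ_smul_self (z : G →+ ℤ) : redZ p ((p : ℤ) • z) = 0 := by
  ext g; simp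

/-- Division by `p` of a character all of whose values are divisible by `p`. -/
def divZ (x : G →+ ℤ) (h : ∀ g, (p : ℤ) ∣ x g) : G →+ ℤ where
  toFun g := x g / p
  map_zero' := by simp
  map_add' a b := by rw [map_add, Int.add_ediv_of_dvd_left (h a)]

lemma smul_divZ (x : G →+ ℤ) (h : ∀ g, (p : ℤ) ∣ x g) : (p : ℤ) • divZ p x h = x := by
  ext g
  simp only [AddMonoidHom.smul_apply, smul_eq_mul]
  exact Int.mul_ediv_cancel' (h g)

lemma redZ_eq_zero_iff (x : G →+ ℤ) : redZ p x = 0 ↔ ∃ z : G →+ ℤ, x = (p : ℤ) • z := by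
  constructor
  · intro h
    have hd : ∀ g, (p : ℤ) ∣ x g := fun g =>
      (ZMod.intCast_zmod_eq_zero_iff_dvd _ _).mp (by simpa using DFunLike.congr_fun h g)
    exact ⟨divZ p x hd, (smul_divZ p x hd).symm⟩
  · rintro ⟨z, rfl⟩
    exact redZ_smul_self p z

lemma redZ_eq_iff (x y : G →+ ℤ) : redZ p x = redZ p y ↔ ∃ z : G →+ ℤ, x - y = (p : ℤ) • z := by
  rw [← redZ_eq_zero_iff, redZ_sub, sub_eq_zero]

end Red

section Cusp

variable (p : ℕ) {n : ℕ}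

lemma isCuspidal_redZ {x : Additive (Gamma0 n) →+ ℤ} (hx : IsCuspidal x) :
    IsCuspidal (redZ p x) := by
  refine ⟨fun γ hγ => ?_, fun γ hγ => ?_⟩
  · show ((x (Additive.ofMul γ) : ℤ) : ZMod p) = 0
    rw [hx.1 γ hγ, Int.cast_zero]
  · show ((x (Additive.ofMul γ) : ℤ) : ZMod p) = 0
    rw [hx.2 γ hγ, Int.cast_zero]

lemma isCuspidal_of_smul {c : ℤ} (hc : c ≠ 0) {z : Additive (Gamma0 n) →+ ℤ}
    (h : IsCuspidal (c • z)) : IsCuspidal z := by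
  refine ⟨fun γ hγ => ?_, fun γ hγ => ?_⟩
  · have := h.1 γ hγ
    simpa [hc] using this
  · have := h.2 γ hγ
    simpa [hc] using this

lemma isCuspidal_zero : IsCuspidal (0 : Additive (Gamma0 n) →+ ℤ) :=
  ⟨fun _ _ => rfl, fun _ _ => rfl⟩

lemma isCuspidal_add {A : Type*} [AddCommGroup A] {x y : Additive (Gamma0 n) →+ A}
    (hx : IsCuspidal x) (hy : IsCuspidal y) : IsCuspidal (x + y) := by
  refine ⟨fun γ hγ => ?_, fun γ hγ => ?_⟩
  · show x (Additive.ofMul γ) + y (Additive.ofMul γ) = 0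
    rw [hx.1 γ hγ, hy.1 γ hγ, add_zero]
  · show x (Additive.ofMul γ) + y (Additive.ofMul γ) = 0
    rw [hx.2 γ hγ, hy.2 γ hγ, add_zero]

lemma isCuspidal_neg {A : Type*} [AddCommGroup A] {x : Additive (Gamma0 n) →+ A}
    (hx : IsCuspidal x) : IsCuspidal (-x) := by
  refine ⟨fun γ hγ => ?_, fun γ hγ => ?_⟩
  · show - x (Additive.ofMul γ) = 0
    rw [hx.1 γ hγ, neg_zero]
  · show - x (Additive.ofMul γ) = 0
    rw [hx.2 γ hγ, neg_zero]

lemma isCuspidal_sub {A : Type*} [AddCommGroup A] {x y : Additive (Gamma0 n) →+ A}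
    (hx : IsCuspidal x) (hy : IsCuspidal y) : IsCuspidal (x - y) := by
  rw [sub_eq_add_neg]
  exact isCuspidal_add hx (isCuspidal_neg hy)

lemma isCuspidal_zsmul {A : Type*} [AddCommGroup A] (c : ℤ) {x : Additive (Gamma0 n) →+ A}
    (hx : IsCuspidal x) : IsCuspidal (c • x) := by
  refine ⟨fun γ hγ => ?_, fun γ hγ => ?_⟩
  · show c • x (Additive.ofMul γ) = 0
    rw [hx.1 γ hγ, smul_zero]
  · show c • x (Additive.ofMul γ) = 0
    rw [hx.2 γ hγ, smul_zero]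

lemma isCuspidal_smul {R A : Type*} [Semiring R] [AddCommGroup A] [Module R A] (c : R)
    {x : Additive (Gamma0 n) →+ A} (hx : IsCuspidal x) : IsCuspidal (c • x) := by
  refine ⟨fun γ hγ => ?_, fun γ hγ => ?_⟩
  · show c • x (Additive.ofMul γ) = 0
    rw [hx.1 γ hγ, smul_zero]
  · show c • x (Additive.ofMul γ) = 0
    rw [hx.2 γ hγ, smul_zero]

end Cusp

section Ops

variable (p : ℕ)

lemma redZ_heckeTransfer {n l : ℕ} [Fact l.Prime] (hl : ¬ l ∣ n)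
    (x : Additive (Gamma0 n) →+ ℤ) :
    redZ p (heckeTransfer hl x) = heckeTransfer hl (redZ p x) :=
  (heckeTransfer_comp hl (Int.castAddHom (ZMod p)) x).symm

lemma redZ_r₁ (N q : ℕ) (x : Additive (Gamma0 N) →+ ℤ) :
    redZ p (r₁ N q x) = r₁ N q (redZ p x) := rfl

lemma redZ_r₂ (N q : ℕ) (x : Additive (Gamma0 N) →+ ℤ) :
    redZ p (r₂ N q x) = r₂ N q (redZ p x) := rfl

lemma redZ_t₁ (hFun : FunctorialityStatement.{0}) (N q : ℕ)
    (y : Additive (Gamma0 (N * q)) →+ ℤ) :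
    redZ p (t₁ N q y) = t₁ N q (redZ p y) :=
  ((hFun N q ℤ (ZMod p) (Int.castAddHom (ZMod p))).2.2.2 y).1.symm

lemma redZ_t₂ (hFun : FunctorialityStatement.{0}) (N q : ℕ)
    (y : Additive (Gamma0 (N * q)) →+ ℤ) :
    redZ p (t₂ N q y) = t₂ N q (redZ p y) :=
  ((hFun N q ℤ (ZMod p) (Int.castAddHom (ZMod p))).2.2.2 y).2.symm

end Ops



/-! ## GlueLat -/

/-- The lattice `C_n(ℤ)` of cuspidal classes with integral coefficients. -/
abbrev CZ (n : ℕ) : Type := cuspidalSubmodule ℤ n ℤ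

/-- `ℤ`-linear maps for the canonical `ℤ`-module structures. -/
abbrev ZLin (M M' : Type) [AddCommGroup M] [AddCommGroup M'] : Type :=
  @LinearMap ℤ ℤ _ _ (RingHom.id ℤ) M M' _ _ (AddCommGroup.toIntModule M)
    (AddCommGroup.toIntModule M')

lemma finite_int_of_inst {M : Type*} [AddCommGroup M] (inst : Module ℤ M)
    (h : @Module.Finite ℤ M _ _ inst) : @Module.Finite ℤ M _ _ (AddCommGroup.toIntModule M) := by
  have e : inst = AddCommGroup.toIntModule M := Subsingleton.elim _ _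
  subst e
  exact h

lemma free_int_of_inst {M : Type*} [AddCommGroup M] (inst : Module ℤ M)
    (h : @Module.Free ℤ M _ _ inst) : @Module.Free ℤ M _ _ (AddCommGroup.toIntModule M) := by
  have e : inst = AddCommGroup.toIntModule M := Subsingleton.elim _ _
  subst e
  exact h

/-- The canonical integer scalar multiplication on `CZ n`, on underlying characters. -/
lemma coe_zsmul_CZ {n : ℕ} (c : ℤ) (x : CZ n) :
    ((@HSMul.hSMul ℤ (CZ n) (CZ n)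
        (@instHSMul ℤ (CZ n) (AddCommGroup.toIntModule (CZ n)).toSMul) c x : CZ n) :
      Additive (Gamma0 n) →+ ℤ) = c • (x : Additive (Gamma0 n) →+ ℤ) :=
  map_zsmul (cuspidalSubmodule ℤ n ℤ).subtype.toAddMonoidHom c x

/-- An additive operator on integral characters preserving cuspidality, as a linear map of
lattices. -/
noncomputable def liftCZ {n m : ℕ}
    (F : (Additive (Gamma0 n) →+ ℤ) → (Additive (Gamma0 m) →+ ℤ))
    (hadd : ∀ x y, F (x + y) = F x + F y) (hc : ∀ x, IsCuspidal x → IsCuspidal (F x)) :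
    ZLin (CZ n) (CZ m) :=
  (AddMonoidHom.mk' (fun x : CZ n => (⟨F x.1, hc x.1 x.2⟩ : CZ m))
    (fun x y => Subtype.ext (hadd x.1 y.1))).toIntLinearMap

@[simp] lemma liftCZ_coe {n m : ℕ}
    (F : (Additive (Gamma0 n) →+ ℤ) → (Additive (Gamma0 m) →+ ℤ))
    (hadd : ∀ x y, F (x + y) = F x + F y) (hc : ∀ x, IsCuspidal x → IsCuspidal (F x))
    (x : CZ n) : ((liftCZ F hadd hc x : CZ m) : Additive (Gamma0 m) →+ ℤ) = F x.1 := rfl

/-- `T_l` with an explicit primality proof. -/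
noncomputable def hT {n : ℕ} {A : Type*} [AddCommGroup A] (l : ℕ) (hl : l.Prime) (hln : ¬ l ∣ n)
    (φ : Additive (Gamma0 n) →+ A) : Additive (Gamma0 n) →+ A :=
  haveI : Fact l.Prime := ⟨hl⟩
  heckeTransfer hln φ

lemma hT_eq {n : ℕ} {A : Type*} [AddCommGroup A] (l : ℕ) [Fact l.Prime] (hl : l.Prime)
    (hln : ¬ l ∣ n) (φ : Additive (Gamma0 n) →+ A) : hT l hl hln φ = heckeTransfer hln φ := rfl

lemma hT_add {n : ℕ} {A : Type*} [AddCommGroup A] (l : ℕ) (hl : l.Prime) (hln : ¬ l ∣ n)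
    (φ ψ : Additive (Gamma0 n) →+ A) : hT l hl hln (φ + ψ) = hT l hl hln φ + hT l hl hln ψ :=
  haveI : Fact l.Prime := ⟨hl⟩
  heckeTransfer_add hln φ ψ

lemma hT_zero {n : ℕ} {A : Type*} [AddCommGroup A] (l : ℕ) (hl : l.Prime) (hln : ¬ l ∣ n) :
    hT l hl hln (0 : Additive (Gamma0 n) →+ A) = 0 := by
  have h := hT_add l hl hln (0 : Additive (Gamma0 n) →+ A) 0
  rw [add_zero] at h
  exact left_eq_add.mp h

lemma hT_neg {n : ℕ} {A : Type*} [AddCommGroup A] (l : ℕ) (hl : l.Prime) (hln : ¬ l ∣ n)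
    (φ : Additive (Gamma0 n) →+ A) : hT l hl hln (-φ) = - hT l hl hln φ := by
  have h := hT_add l hl hln φ (-φ)
  rw [add_neg_cancel, hT_zero] at h
  exact eq_neg_of_add_eq_zero_right h.symm

lemma hT_sub {n : ℕ} {A : Type*} [AddCommGroup A] (l : ℕ) (hl : l.Prime) (hln : ¬ l ∣ n)
    (φ ψ : Additive (Gamma0 n) →+ A) : hT l hl hln (φ - ψ) = hT l hl hln φ - hT l hl hln ψ := by
  rw [sub_eq_add_neg, hT_add, hT_neg, sub_eq_add_neg]

lemma hT_comp {n : ℕ} {A B : Type*} [AddCommGroup A] [AddCommGroup B] (l : ℕ) (hl : l.Prime)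
    (hln : ¬ l ∣ n) (π : A →+ B) (φ : Additive (Gamma0 n) →+ A) :
    hT l hl hln (π.comp φ) = π.comp (hT l hl hln φ) :=
  haveI : Fact l.Prime := ⟨hl⟩
  heckeTransfer_comp hln π φ

lemma redZ_hT (p : ℕ) {n : ℕ} (l : ℕ) (hl : l.Prime) (hln : ¬ l ∣ n)
    (x : Additive (Gamma0 n) →+ ℤ) : redZ p (hT l hl hln x) = hT l hl hln (redZ p x) :=
  (hT_comp l hl hln (Int.castAddHom (ZMod p)) x).symm

lemma hT_zsmul {n : ℕ} {A : Type*} [AddCommGroup A] (l : ℕ) (hl : l.Prime) (hln : ¬ l ∣ n)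
    (c : ℤ) (φ : Additive (Gamma0 n) →+ A) : hT l hl hln (c • φ) = c • hT l hl hln φ := by
  have h := hT_comp l hl hln (zsmulAddGroupHom c : A →+ A) φ
  have e1 : (zsmulAddGroupHom c : A →+ A).comp φ = c • φ := by
    ext γ; simp
  have e2 : (zsmulAddGroupHom c : A →+ A).comp (hT l hl hln φ) = c • hT l hl hln φ := by
    ext γ; simp
  rw [e1, e2] at h
  exact h

lemma hT_smul {n : ℕ} {R : Type*} [CommRing R] (l : ℕ) (hl : l.Prime) (hln : ¬ l ∣ n)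
    (c : R) (φ : Additive (Gamma0 n) →+ R) : hT l hl hln (c • φ) = c • hT l hl hln φ := by
  have h := hT_comp l hl hln (AddMonoidHom.mulLeft c : R →+ R) φ
  have e1 : (AddMonoidHom.mulLeft c : R →+ R).comp φ = c • φ := by
    ext γ; simp
  have e2 : (AddMonoidHom.mulLeft c : R →+ R).comp (hT l hl hln φ) = c • hT l hl hln φ := by
    ext γ; simp
  rw [e1, e2] at h
  exact h



/-! ## GlueCore -/

section HKhT

variable {n : ℕ} {A : Type} [AddCommGroup A]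

lemma hT_comm (hComm : HeckeCommStatement.{0}) (l l' : ℕ) (hl : l.Prime) (hl' : l'.Prime)
    (hln : ¬ l ∣ n) (hl'n : ¬ l' ∣ n) (φ : Additive (Gamma0 n) →+ A) :
    hT l hl hln (hT l' hl' hl'n φ) = hT l' hl' hl'n (hT l hl hln φ) := by
  haveI : Fact l.Prime := ⟨hl⟩
  haveI : Fact l'.Prime := ⟨hl'⟩
  exact hComm n l l' hln hl'n A φ

lemma hT_cusp (hHC : HeckeCuspStatement.{0}) (l : ℕ) (hl : l.Prime) (hln : ¬ l ∣ n)
    {φ : Additive (Gamma0 n) →+ A} (h : IsCuspidal φ) : IsCuspidal (hT l hl hln φ) := by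
  haveI : Fact l.Prime := ⟨hl⟩
  exact hHC n l hln A φ h

lemma hT_r₁ (hHR : HeckeRestrictStatement.{0}) (N q l : ℕ) (hl : l.Prime) (hlN : ¬ l ∣ N)
    (hlNq : ¬ l ∣ N * q) (φ : Additive (Gamma0 N) →+ A) :
    hT l hl hlNq (r₁ N q φ) = r₁ N q (hT l hl hlN φ) := by
  haveI : Fact l.Prime := ⟨hl⟩
  exact (hHR N q l hlN hlNq A φ).1

lemma hT_r₂ (hHR : HeckeRestrictStatement.{0}) (N q l : ℕ) (hl : l.Prime) (hlN : ¬ l ∣ N)
    (hlNq : ¬ l ∣ N * q) (φ : Additive (Gamma0 N) →+ A) :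
    hT l hl hlNq (r₂ N q φ) = r₂ N q (hT l hl hlN φ) := by
  haveI : Fact l.Prime := ⟨hl⟩
  exact (hHR N q l hlN hlNq A φ).2

lemma hT_t₁ (hHT : HeckeTransferStatement.{0}) (N q l : ℕ) (hNq : N * q ≠ 0) (hl : l.Prime)
    (hlN : ¬ l ∣ N) (hlNq : ¬ l ∣ N * q) (ψ : Additive (Gamma0 (N * q)) →+ A) :
    hT l hl hlN (t₁ N q ψ) = t₁ N q (hT l hl hlNq ψ) := by
  haveI : Fact l.Prime := ⟨hl⟩
  exact (hHT N q l hlN hlNq hNq A ψ).1

lemma hT_t₂ (hHT : HeckeTransferStatement.{0}) (N q l : ℕ) (hNq : N * q ≠ 0) (hl : l.Prime)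
    (hlN : ¬ l ∣ N) (hlNq : ¬ l ∣ N * q) (ψ : Additive (Gamma0 (N * q)) →+ A) :
    hT l hl hlN (t₂ N q ψ) = t₂ N q (hT l hl hlNq ψ) := by
  haveI : Fact l.Prime := ⟨hl⟩
  exact (hHT N q l hlN hlNq hNq A ψ).2

lemma t₁_r₂ (hTRH : TransferRestrictHeckeStatement.{0}) (N q : ℕ) (hN : N ≠ 0) (hq : q.Prime)
    (hqN : ¬ q ∣ N) (φ : Additive (Gamma0 N) →+ A) : t₁ N q (r₂ N q φ) = hT q hq hqN φ := by
  haveI : Fact q.Prime := ⟨hq⟩
  exact (hTRH N q hqN hN A φ).1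

lemma t₂_r₁ (hTRH : TransferRestrictHeckeStatement.{0}) (N q : ℕ) (hN : N ≠ 0) (hq : q.Prime)
    (hqN : ¬ q ∣ N) (φ : Additive (Gamma0 N) →+ A) : t₂ N q (r₁ N q φ) = hT q hq hqN φ := by
  haveI : Fact q.Prime := ⟨hq⟩
  exact (hTRH N q hqN hN A φ).2

lemma t₁_r₁ (hTR : TransferRestrictStatement.{0}) (N q : ℕ) (hN : N ≠ 0) (hq : q.Prime)
    (hqN : ¬ q ∣ N) (φ : Additive (Gamma0 N) →+ A) :
    t₁ N q (r₁ N q φ) = ((q : ℤ) + 1) • φ := by
  rw [(hTR N q hN hq hqN A φ).1]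
  have : ((q : ℤ) + 1) = ((q + 1 : ℕ) : ℤ) := by push_cast; ring
  rw [this, natCast_zsmul]

lemma t₂_r₂ (hTR : TransferRestrictStatement.{0}) (N q : ℕ) (hN : N ≠ 0) (hq : q.Prime)
    (hqN : ¬ q ∣ N) (φ : Additive (Gamma0 N) →+ A) :
    t₂ N q (r₂ N q φ) = ((q : ℤ) + 1) • φ := by
  rw [(hTR N q hN hq hqN A φ).2]
  have : ((q : ℤ) + 1) = ((q + 1 : ℕ) : ℤ) := by push_cast; ring
  rw [this, natCast_zsmul]

end HKhT

/-- An element of `CZ n` whose underlying character is `p • z` is `p` times an element. -/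
lemma exists_eq_smul_CZ {n : ℕ} {c : ℤ} (hc : c ≠ 0) (x : CZ n)
    (z : Additive (Gamma0 n) →+ ℤ) (h : (x : Additive (Gamma0 n) →+ ℤ) = c • z) :
    ∃ z' : CZ n, x = @HSMul.hSMul ℤ (CZ n) (CZ n)
        (@instHSMul ℤ (CZ n) (AddCommGroup.toIntModule (CZ n)).toSMul) c z' := by
  have hz : IsCuspidal z := isCuspidal_of_smul hc (by rw [← h]; exact x.2)
  refine ⟨⟨z, hz⟩, Subtype.ext ?_⟩
  rw [coe_zsmul_CZ]
  exact h

theorem glueCore
    (hFun : FunctorialityStatement.{0}) (hRC : RestrictCuspStatement.{0})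
    (hTC : TransferCuspStatement.{0}) (hHC : HeckeCuspStatement.{0})
    (hHR : HeckeRestrictStatement.{0}) (hHT : HeckeTransferStatement.{0})
    (hTR : TransferRestrictStatement.{0}) (hTRH : TransferRestrictHeckeStatement.{0})
    (hComm : HeckeCommStatement.{0})
    (hPD : PDHeckeStatement.{0}) (hLift : LiftStatement) (hFree : CuspFreeStatement)
    (hCore : RibetCoreStatement)
    (p N q : ℕ) [hpF : Fact p.Prime] (hq : q.Prime) (hN : N ≠ 0) (hqN : ¬ q ∣ N)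
    (P : ℕ → Prop) (a : ℕ → ℤ)
    (hIh : ∀ φ₁ φ₂ : Additive (Gamma0 N) →+ ZMod p, IsCuspidal φ₁ → IsCuspidal φ₂ →
      r₁ N q φ₁ + r₂ N q φ₂ = 0 →
      (∀ (l : ℕ) (hl : l.Prime) (hlN : ¬ l ∣ N), ¬ l ∣ N * q → P l →
        hT l hl hlN φ₁ = ((a l : ℤ) : ZMod p) • φ₁ ∧
        hT l hl hlN φ₂ = ((a l : ℤ) : ZMod p) • φ₂) → φ₁ = 0 ∧ φ₂ = 0)
    (x : Additive (Gamma0 N) →+ ZMod p) (μ : ZMod p) (hx0 : x ≠ 0) (hxc : IsCuspidal x)
    (hxe : ∀ (l : ℕ) (hl : l.Prime) (hlN : ¬ l ∣ N), ¬ l ∣ N * q → P l →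
      hT l hl hlN x = ((a l : ℤ) : ZMod p) • x)
    (hμ : μ ^ 2 = ((q : ZMod p) + 1) ^ 2) (hxT : hT q hq hqN x = μ • x) :
    ∃ y : Additive (Gamma0 (N * q)) →+ ℤ, IsCuspidal y ∧ t₁ N q y = 0 ∧ t₂ N q y = 0 ∧
      (∀ z : Additive (Gamma0 (N * q)) →+ ℤ, y ≠ (p : ℤ) • z) ∧
      ∀ (l : ℕ) (hl : l.Prime) (hlNq : ¬ l ∣ N * q), P l →
        ∃ z : Additive (Gamma0 (N * q)) →+ ℤ, hT l hl hlNq y - a l • y = (p : ℤ) • z := by
  classical
  have hp : p.Prime := hpF.out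
  have hp0 : (p : ℤ) ≠ 0 := by exact_mod_cast hp.ne_zero
  have hNq : N * q ≠ 0 := Nat.mul_ne_zero hN hq.ne_zero
  haveI : Fact q.Prime := ⟨hq⟩
  obtain ⟨Bf, hB, hSA⟩ := hPD (ZMod p)
  obtain ⟨hBadd, hBsmul, hBskew, hBnd, hBadj⟩ := hB
  -- additivity in the second variable
  have hBadd' : ∀ n : ℕ, n ≠ 0 → ∀ x y y' : Additive (Gamma0 n) →+ ZMod p, IsCuspidal x →
      IsCuspidal y → IsCuspidal y' → Bf n x (y + y') = Bf n x y + Bf n x y' := by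
    intro n hn x y y' hx hy hy'
    rw [hBskew n hn (y + y') x (isCuspidal_add hy hy') hx, hBadd n hn y y' x hy hy' hx,
      hBskew n hn x y hx hy, hBskew n hn x y' hx hy', hBskew n hn y x hy hx,
      hBskew n hn y' x hy' hx]
    ring
  -- the index set
  let ι : Type := {l : ℕ // l.Prime ∧ ¬ l ∣ N * q ∧ P l}
  have hιN : ∀ l : ι, ¬ l.1 ∣ N := fun l h => l.2.2.1 (Dvd.dvd.mul_right h q)
  -- instances
  obtain ⟨hfinA, hfreeA⟩ := hFree N hN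
  obtain ⟨hfinB, hfreeB⟩ := hFree (N * q) hNq
  haveI : @Module.Finite ℤ (CZ N) _ _ (AddCommGroup.toIntModule _) := finite_int_of_inst _ hfinA
  haveI : @Module.Free ℤ (CZ N) _ _ (AddCommGroup.toIntModule _) := free_int_of_inst _ hfreeA
  haveI : @Module.Finite ℤ (CZ (N * q)) _ _ (AddCommGroup.toIntModule _) :=
    finite_int_of_inst _ hfinB
  haveI : @Module.Free ℤ (CZ (N * q)) _ _ (AddCommGroup.toIntModule _) :=
    free_int_of_inst _ hfreeB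
  -- the operators
  let tA : ι → ZLin (CZ N) (CZ N) := fun l =>
    liftCZ (hT l.1 l.2.1 (hιN l)) (hT_add _ _ _)
      (fun x hx => by
        haveI : Fact l.1.Prime := ⟨l.2.1⟩
        exact hHC N l.1 (hιN l) ℤ x hx)
  let tB : ι → ZLin (CZ (N * q)) (CZ (N * q)) := fun l =>
    liftCZ (hT l.1 l.2.1 l.2.2.1) (hT_add _ _ _)
      (fun x hx => by
        haveI : Fact l.1.Prime := ⟨l.2.1⟩
        exact hHC (N * q) l.1 l.2.2.1 ℤ x hx)
  let T : ZLin (CZ N) (CZ N) :=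
    liftCZ (hT q hq hqN) (hT_add _ _ _) (fun x hx => hHC N q hqN ℤ x hx)
  let i₁ : ZLin (CZ N) (CZ (N * q)) :=
    liftCZ (r₁ N q) (fun x y => ((hFun N q ℤ ℤ 0).1 x y).1) (fun x hx => (hRC N q ℤ x hx).1)
  let i₂ : ZLin (CZ N) (CZ (N * q)) :=
    liftCZ (r₂ N q) (fun x y => ((hFun N q ℤ ℤ 0).1 x y).2) (fun x hx => (hRC N q ℤ x hx).2)
  let j₁ : ZLin (CZ (N * q)) (CZ N) :=
    liftCZ (t₁ N q) (fun x y => ((hFun N q ℤ ℤ 0).2.1 x y).1) (fun x hx => (hTC N q ℤ x hx).1)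
  let j₂ : ZLin (CZ (N * q)) (CZ N) :=
    liftCZ (t₂ N q) (fun x y => ((hFun N q ℤ ℤ 0).2.1 x y).2) (fun x hx => (hTC N q ℤ x hx).2)
  let βA : CZ N → CZ N → ZMod p := fun x y => Bf N (redZ p x.1) (redZ p y.1)
  let βB : CZ (N * q) → CZ (N * q) → ZMod p := fun x y => Bf (N * q) (redZ p x.1) (redZ p y.1)
  obtain ⟨μZ, hμZ⟩ := ZMod.intCast_surjective μ
  -- the hypotheses of CORE
  have h1 : ∀ l l' x, tA l (tA l' x) = tA l' (tA l x) := fun l l' x =>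
    Subtype.ext (hT_comm hComm l.1 l'.1 l.2.1 l'.2.1 (hιN l) (hιN l') x.1)
  have h2 : ∀ l l' y, tB l (tB l' y) = tB l' (tB l y) := fun l l' y =>
    Subtype.ext (hT_comm hComm l.1 l'.1 l.2.1 l'.2.1 l.2.2.1 l'.2.2.1 y.1)
  have h3 : ∀ l x, tB l (i₁ x) = i₁ (tA l x) := fun l x =>
    Subtype.ext (hT_r₁ hHR N q l.1 l.2.1 (hιN l) l.2.2.1 x.1)
  have h4 : ∀ l x, tB l (i₂ x) = i₂ (tA l x) := fun l x =>
    Subtype.ext (hT_r₂ hHR N q l.1 l.2.1 (hιN l) l.2.2.1 x.1)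
  have h5 : ∀ l y, tA l (j₁ y) = j₁ (tB l y) := fun l y =>
    Subtype.ext (hT_t₁ hHT N q l.1 hNq l.2.1 (hιN l) l.2.2.1 y.1)
  have h6 : ∀ l y, tA l (j₂ y) = j₂ (tB l y) := fun l y =>
    Subtype.ext (hT_t₂ hHT N q l.1 hNq l.2.1 (hιN l) l.2.2.1 y.1)
  have h7 : ∀ x, j₁ (i₁ x) = ((q : ℤ) + 1) • x := fun x =>
    Subtype.ext (by rw [coe_zsmul_CZ]; exact t₁_r₁ hTR N q hN hq hqN x.1)
  have h8 : ∀ x, j₂ (i₂ x) = ((q : ℤ) + 1) • x := fun x =>
    Subtype.ext (by rw [coe_zsmul_CZ]; exact t₂_r₂ hTR N q hN hq hqN x.1)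
  have h9 : ∀ x, j₁ (i₂ x) = T x := fun x => Subtype.ext (t₁_r₂ hTRH N q hN hq hqN x.1)
  have h10 : ∀ x, j₂ (i₁ x) = T x := fun x => Subtype.ext (t₂_r₁ hTRH N q hN hq hqN x.1)
  have h11 : ∀ x x' y, βA (x + x') y = βA x y + βA x' y := by
    intro x x' y
    show Bf N (redZ p (x.1 + x'.1)) (redZ p y.1) = _
    rw [redZ_add]
    exact hBadd N hN _ _ _ (isCuspidal_redZ p x.2) (isCuspidal_redZ p x'.2)
      (isCuspidal_redZ p y.2)
  have h12 : ∀ x y y', βA x (y + y') = βA x y + βA x y' := by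
    intro x y y'
    show Bf N (redZ p x.1) (redZ p (y.1 + y'.1)) = _
    rw [redZ_add]
    exact hBadd' N hN _ _ _ (isCuspidal_redZ p x.2) (isCuspidal_redZ p y.2)
      (isCuspidal_redZ p y'.2)
  have h13 : ∀ x x' y, βB (x + x') y = βB x y + βB x' y := by
    intro x x' y
    show Bf (N * q) (redZ p (x.1 + x'.1)) (redZ p y.1) = _
    rw [redZ_add]
    exact hBadd (N * q) hNq _ _ _ (isCuspidal_redZ p x.2) (isCuspidal_redZ p x'.2)
      (isCuspidal_redZ p y.2)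
  have h14 : ∀ x y y', βB x (y + y') = βB x y + βB x y' := by
    intro x y y'
    show Bf (N * q) (redZ p x.1) (redZ p (y.1 + y'.1)) = _
    rw [redZ_add]
    exact hBadd' (N * q) hNq _ _ _ (isCuspidal_redZ p x.2) (isCuspidal_redZ p y.2)
      (isCuspidal_redZ p y'.2)
  -- nondegeneracy
  have hnd : ∀ n : ℕ, n ≠ 0 → ∀ x : CZ n,
      (∀ y : CZ n, Bf n (redZ p x.1) (redZ p y.1) = 0) → ∃ z : CZ n, x = (p : ℤ) • z := by
    intro n hn x hx
    have hred : redZ p x.1 = 0 := by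
      apply hBnd n hn _ (isCuspidal_redZ p x.2)
      intro ybar hybar
      obtain ⟨y, hyc, hy⟩ := hLift n p hn ybar hybar
      have := hx ⟨y, hyc⟩
      rw [← hy]
      exact this
    obtain ⟨z, hz⟩ := (redZ_eq_zero_iff p x.1).mp hred
    exact exists_eq_smul_CZ hp0 x z hz
  have h15 : ∀ x, (∀ y, βA x y = 0) → ∃ z, x = (p : ℤ) • z := fun x hx => hnd N hN x hx
  have h16 : ∀ x, (∀ y, βB x y = 0) → ∃ z, x = (p : ℤ) • z := fun x hx => hnd (N * q) hNq x hx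
  have hsa : ∀ (n : ℕ) (hn : n ≠ 0) (l : ℕ) (hl : l.Prime) (hln : ¬ l ∣ n) (x y : CZ n),
      Bf n (redZ p (hT l hl hln x.1)) (redZ p y.1) =
        Bf n (redZ p x.1) (redZ p (hT l hl hln y.1)) := by
    intro n hn l hl hln x y
    haveI : Fact l.Prime := ⟨hl⟩
    rw [redZ_hT, redZ_hT]
    exact hSA n l hln hn _ _ (isCuspidal_redZ p x.2) (isCuspidal_redZ p y.2)
  have h17 : ∀ l x y, βA (tA l x) y = βA x (tA l y) := fun l x y =>
    hsa N hN l.1 l.2.1 (hιN l) x y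
  have h18 : ∀ l x y, βB (tB l x) y = βB x (tB l y) := fun l x y =>
    hsa (N * q) hNq l.1 l.2.1 l.2.2.1 x y
  have h19 : ∀ x y, βB (i₁ x) y = βA x (j₁ y) := by
    intro x y
    show Bf (N * q) (redZ p (r₁ N q x.1)) (redZ p y.1) = Bf N (redZ p x.1) (redZ p (t₁ N q y.1))
    rw [redZ_r₁, redZ_t₁ p hFun]
    exact (hBadj N q hN hq hqN _ _ (isCuspidal_redZ p x.2) (isCuspidal_redZ p y.2)).1
  have h20 : ∀ x y, βB (i₂ x) y = βA x (j₂ y) := by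
    intro x y
    show Bf (N * q) (redZ p (r₂ N q x.1)) (redZ p y.1) = Bf N (redZ p x.1) (redZ p (t₂ N q y.1))
    rw [redZ_r₂, redZ_t₂ p hFun]
    exact (hBadj N q hN hq hqN _ _ (isCuspidal_redZ p x.2) (isCuspidal_redZ p y.2)).2
  -- eigenvector mod p, in terms of reductions
  have heig : ∀ (n : ℕ) (l : ℕ) (hl : l.Prime) (hln : ¬ l ∣ n) (c : ℤ) (x z : CZ n),
      (⟨hT l hl hln x.1, hT_cusp hHC l hl hln x.2⟩ : CZ n) - c • x = (p : ℤ) • z →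
      hT l hl hln (redZ p x.1) = (c : ZMod p) • redZ p x.1 := by
    intro n l hl hln c x z h
    have h' := congrArg (fun w : CZ n => redZ p (w : Additive (Gamma0 n) →+ ℤ)) h
    beta_reduce at h'
    rw [coe_zsmul_CZ, redZ_smul_self] at h'
    have h'' : redZ p (hT l hl hln x.1 - c • x.1) = 0 := by
      rw [← h']
      congr 1
    rw [redZ_sub, redZ_zsmul, redZ_hT, sub_eq_zero] at h''
    exact h''
  have h21 : ∀ x₁ x₂ : CZ N, (∃ z, i₁ x₁ + i₂ x₂ = (p : ℤ) • z) →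
      (∀ l, ∃ z, tA l x₁ - (a l.1) • x₁ = (p : ℤ) • z) →
      (∀ l, ∃ z, tA l x₂ - (a l.1) • x₂ = (p : ℤ) • z) →
      (∃ z, x₁ = (p : ℤ) • z) ∧ (∃ z, x₂ = (p : ℤ) • z) := by
    rintro x₁ x₂ ⟨z, hz⟩ he₁ he₂
    have hker : r₁ N q (redZ p x₁.1) + r₂ N q (redZ p x₂.1) = 0 := by
      have h' := congrArg (fun w : CZ (N * q) => redZ p (w : Additive (Gamma0 (N * q)) →+ ℤ)) hz
      beta_reduce at h'
      rw [coe_zsmul_CZ, redZ_smul_self] at h'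
      rw [← h', ← redZ_r₁, ← redZ_r₂, ← redZ_add]
      rfl
    obtain ⟨e1, e2⟩ := hIh (redZ p x₁.1) (redZ p x₂.1) (isCuspidal_redZ p x₁.2)
      (isCuspidal_redZ p x₂.2) hker (by
        intro l hl hlN hlNq hPl
        obtain ⟨z₁, hz₁⟩ := he₁ ⟨l, hl, hlNq, hPl⟩
        obtain ⟨z₂, hz₂⟩ := he₂ ⟨l, hl, hlNq, hPl⟩
        exact ⟨heig N l hl hlN (a l) x₁ z₁ hz₁, heig N l hl hlN (a l) x₂ z₂ hz₂⟩)
    obtain ⟨z₁, hz₁⟩ := (redZ_eq_zero_iff p x₁.1).mp e1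
    obtain ⟨z₂, hz₂⟩ := (redZ_eq_zero_iff p x₂.1).mp e2
    exact ⟨exists_eq_smul_CZ hp0 x₁ z₁ hz₁, exists_eq_smul_CZ hp0 x₂ z₂ hz₂⟩
  -- divisibility by `p` from vanishing of the reduction
  have hdiv : ∀ (n : ℕ) (w : CZ n), redZ p w.1 = 0 → ∃ z : CZ n, w = (p : ℤ) • z := by
    intro n w hw
    obtain ⟨z, hz⟩ := (redZ_eq_zero_iff p w.1).mp hw
    exact exists_eq_smul_CZ hp0 w z hz
  have hmk : ∀ (n : ℕ) (l : ℕ) (hl : l.Prime) (hln : ¬ l ∣ n) (c : ℤ) (x : CZ n),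
      hT l hl hln (redZ p x.1) = (c : ZMod p) • redZ p x.1 →
      ∃ z : CZ n, (⟨hT l hl hln x.1, hT_cusp hHC l hl hln x.2⟩ : CZ n) - c • x = (p : ℤ) • z := by
    intro n l hl hln c x h
    apply hdiv
    have e : (((⟨hT l hl hln x.1, hT_cusp hHC l hl hln x.2⟩ : CZ n) - c • x : CZ n) :
        Additive (Gamma0 n) →+ ℤ) = hT l hl hln x.1 - c • x.1 := by
      show hT l hl hln x.1 - ((c • x : CZ n) : Additive (Gamma0 n) →+ ℤ) = _
      rw [coe_zsmul_CZ]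
    rw [e, redZ_sub, redZ_zsmul, redZ_hT, h, sub_self]
  have h22 : ∃ x : CZ N, (¬ ∃ z, x = (p : ℤ) • z) ∧ (∃ z, T x - μZ • x = (p : ℤ) • z) ∧
      ∀ l, ∃ z, tA l x - (a l.1) • x = (p : ℤ) • z := by
    obtain ⟨xZ, hxZc, hxZ⟩ := hLift N p hN x hxc
    have hxZ' : redZ p xZ = x := hxZ
    refine ⟨⟨xZ, hxZc⟩, ?_, ?_, ?_⟩
    · rintro ⟨z, hz⟩
      apply hx0
      have h' := congrArg (fun w : CZ N => redZ p (w : Additive (Gamma0 N) →+ ℤ)) hz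
      beta_reduce at h'
      rw [coe_zsmul_CZ, redZ_smul_self] at h'
      rw [← hxZ']
      exact h'
    · apply hmk N q hq hqN μZ ⟨xZ, hxZc⟩
      show hT q hq hqN (redZ p xZ) = (μZ : ZMod p) • redZ p xZ
      rw [hxZ', hμZ]
      exact hxT
    · intro l
      apply hmk N l.1 l.2.1 (hιN l) (a l.1) ⟨xZ, hxZc⟩
      show hT l.1 l.2.1 (hιN l) (redZ p xZ) = ((a l.1 : ℤ) : ZMod p) • redZ p xZ
      rw [hxZ']
      exact hxe l.1 l.2.1 (hιN l) l.2.2.1 l.2.2.2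
  have h23 : (p : ℤ) ∣ μZ ^ 2 - ((q : ℤ) + 1) ^ 2 := by
    apply (ZMod.intCast_zmod_eq_zero_iff_dvd _ p).mp
    push_cast
    rw [hμZ, hμ, sub_self]
  obtain ⟨y, hy1, hy2, hy3, hy4⟩ := hCore p ι (CZ N) (CZ (N * q)) tA tB T i₁ i₂ j₁ j₂
    ((q : ℤ) + 1) μZ (fun l => a l.1) βA βB h1 h2 h3 h4 h5 h6 h7 h8 h9 h10 h11 h12 h13 h14 h15 h16
    h17 h18 h19 h20 h21 h22 h23
  refine ⟨y.1, y.2, congrArg Subtype.val hy1, congrArg Subtype.val hy2, ?_, ?_⟩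
  · intro z hz
    exact hy3 (exists_eq_smul_CZ hp0 y z hz)
  · intro l hl hlNq hPl
    obtain ⟨z, hz⟩ := hy4 ⟨l, hl, hlNq, hPl⟩
    refine ⟨z.1, ?_⟩
    have h' := congrArg (fun w : CZ (N * q) => (w : Additive (Gamma0 (N * q)) →+ ℤ)) hz
    beta_reduce at h'
    rw [coe_zsmul_CZ] at h'
    rw [← h']
    show _ = hT l hl hlNq y.1 - ((a l • y : CZ (N * q)) : Additive (Gamma0 (N * q)) →+ ℤ)
    rw [coe_zsmul_CZ]



/-! ## GlueA -/

open WeierstrassCurve WeierstrassCurve.Affine WeierstrassCurve.Affine.Point in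
theorem glueA
    (hFun : FunctorialityStatement.{0}) (hRC : RestrictCuspStatement.{0})
    (hTC : TransferCuspStatement.{0}) (hHC : HeckeCuspStatement.{0})
    (hHR : HeckeRestrictStatement.{0}) (hHT : HeckeTransferStatement.{0})
    (hTR : TransferRestrictStatement.{0}) (hTRH : TransferRestrictHeckeStatement.{0})
    (hComm : HeckeCommStatement.{0})
    (hPD : PDHeckeStatement.{0}) (hLift : LiftStatement) (hFree : CuspFreeStatement)
    (hIH : IharaEigenStatement) (hOcc : OccStatement) (hCore : RibetCoreStatement)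
    (E : WeierstrassCurve ℚ) [E.IsElliptic] {W : WeierstrassCurve ℤ} (hW : W.IsIntegralModelOf E)
    {p N q' : ℕ} (hp : p.Prime) (hp2 : p ≠ 2) (hN : 0 < N) (hq' : q'.Prime) (hq'N : ¬ q' ∣ N)
    (hq'p : q' ≠ p)
    (hirr : GaloisRepIsIrreducible (K := AlgebraicClosure ℚ) ℚ E p)
    (f : CuspForm (CongruenceSubgroup.Gamma0 N) 2) (𝔪 : Ideal (integralClosure ℤ ℂ))
    (hf : f.IsNormalizedEigenform) (hmax : 𝔪.IsMaximal) (hpm : (p : integralClosure ℤ ℂ) ∈ 𝔪)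
    (hcong : ∀ ℓ : ℕ, ℓ.Prime → W.IsGoodPrimeFor ℓ → ¬ ℓ ∣ N → ℓ ≠ p →
      ∃ a : integralClosure ℤ ℂ, (a : ℂ) = ModularFormClass.qCoeff f ℓ ∧
        a - ((W.apOfModel ℓ : ℤ) : integralClosure ℤ ℂ) ∈ 𝔪)
    (hLR : ∃ a : integralClosure ℤ ℂ, (a : ℂ) = ModularFormClass.qCoeff f q' ∧
      a ^ 2 - ((q' : integralClosure ℤ ℂ) + 1) ^ 2 ∈ 𝔪) :
    ∃ y : Additive (Gamma0 (N * q')) →+ ℤ, IsCuspidal y ∧ t₁ N q' y = 0 ∧ t₂ N q' y = 0 ∧
      (∀ z : Additive (Gamma0 (N * q')) →+ ℤ, y ≠ (p : ℤ) • z) ∧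
      ∀ (l : ℕ) (hl : l.Prime) (hlNq : ¬ l ∣ N * q'), W.IsGoodPrimeFor l → l ≠ p →
        ∃ z : Additive (Gamma0 (N * q')) →+ ℤ,
          hT l hl hlNq y - (W.apOfModel l : ℤ) • y = (p : ℤ) • z := by
  haveI : Fact p.Prime := ⟨hp⟩
  haveI : NeZero N := ⟨hN.ne'⟩
  obtain ⟨x, μ, hx0, hxc, hxe, hμ, hxT⟩ :=
    hOcc W p N q' hp hq' hq'N f 𝔪 hf hmax hpm hcong hLR
  obtain ⟨y, hy1, hy2, hy3, hy4, hy5⟩ := glueCore hFun hRC hTC hHC hHR hHT hTR hTRH hComm hPD hLift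
    hFree hCore p N q' hq' hN.ne' hq'N (fun l => W.IsGoodPrimeFor l ∧ l ≠ p)
    (fun l => (W.apOfModel l : ℤ))
    (by
      intro φ₁ φ₂ h₁ h₂ hker heig
      refine hIH E W hW p N q' hp hp2 hN.ne' hq' hq'N hq'p hirr φ₁ φ₂ h₁ h₂ hker ?_
      intro l _ hl hlNq hgood hlp
      exact heig l Fact.out hl hlNq ⟨hgood, hlp⟩)
    x μ hx0 hxc
    (by
      intro l hl hlN _ hP
      haveI : Fact l.Prime := ⟨hl⟩
      exact hxe l hlN hP.1 hP.2)
    hμ hxT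
  exact ⟨y, hy1, hy2, hy3, hy4, fun l hl hlNq hg hlp => hy5 l hl hlNq ⟨hg, hlp⟩⟩


end Fermat.Agent.S41.H225
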